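import Mathlib

/-!
# Growth of torsion from counts of fixed points

`exists_card_torSub_le`: if all orbits of an endomorphism `φ` of an abelian group are periodic,
the fixed groups of the iterates are finite and `v_p #fix(φ ^ r) ≤ C + d v_p r`, then the
`p ^ m`-torsion is finite of order at most `C' p ^ (d m)`.  The `p`-torsion is finite
(`exists_card_le`), so fixed by some iterate `φ ^ r₀`, and then the `p ^ (m + 1)`-torsion is fixed
by `φ ^ (r₀ p ^ m)`.
-/

set_option autoImplicit false

noncomputable section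

open Polynomial

namespace FLTAgent.RedSurj

variable {P : Type*} [AddCommGroup P] (φ : AddMonoid.End P) {p : ℕ} [hp : Fact p.Prime]

/-- The fixed points of `φ ^ r`. -/
def fixSub (r : ℕ) : AddSubgroup P where
  carrier := {x | (φ ^ r : AddMonoid.End P) x = x}
  zero_mem' := map_zero _
  add_mem' := fun {x y} hx hy => by
    show (φ ^ r : AddMonoid.End P) (x + y) = x + y
    rw [map_add]
    exact congrArg₂ (· + ·) hx hy
  neg_mem' := fun {x} hx => by
    show (φ ^ r : AddMonoid.End P) (-x) = -x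
    rw [map_neg]
    exact congrArg Neg.neg hx

theorem mem_fixSub {r : ℕ} {x : P} : x ∈ fixSub φ r ↔ (φ ^ r : AddMonoid.End P) x = x := Iff.rfl

/-- The elements killed by `n`. -/
def torSub (n : ℕ) : AddSubgroup P where
  carrier := {x | n • x = 0}
  zero_mem' := smul_zero n
  add_mem' := fun {x y} hx hy => by
    show n • (x + y) = 0
    rw [smul_add, hx, hy, add_zero]
  neg_mem' := fun {x} hx => by
    show n • (-x) = 0
    rw [smul_neg, hx, neg_zero]

theorem mem_torSub {n : ℕ} {x : P} : x ∈ torSub (P := P) n ↔ n • x = 0 := Iff.rfl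

theorem fixSub_mono {r r' : ℕ} (h : r ∣ r') : fixSub φ r ≤ fixSub φ r' := by
  obtain ⟨a, rfl⟩ := h
  intro x hx
  rw [mem_fixSub] at hx ⊢
  induction a with
  | zero => simp
  | succ a ih =>
    rw [Nat.mul_succ, pow_add]
    show (φ ^ (r * a) : AddMonoid.End P) ((φ ^ r : AddMonoid.End P) x) = x
    rw [hx, ih]

theorem exists_period (hper : ∀ x : P, ∃ r : ℕ, r ≠ 0 ∧ x ∈ fixSub φ r) (S : Finset P) :
    ∃ r : ℕ, r ≠ 0 ∧ ∀ x ∈ S, x ∈ fixSub φ r := by
  classical
  induction S using Finset.induction_on with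
  | empty => exact ⟨1, one_ne_zero, fun x hx => absurd hx (Finset.notMem_empty x)⟩
  | insert a S ha ih =>
    obtain ⟨r, hr, h⟩ := ih
    obtain ⟨b, hb, hb'⟩ := hper a
    refine ⟨r * b, mul_ne_zero hr hb, fun x hx => ?_⟩
    rcases Finset.mem_insert.1 hx with rfl | hx
    exacts [fixSub_mono φ (dvd_mul_left b r) hb', fixSub_mono φ (dvd_mul_right r b) (h x hx)]

/-- A finite subgroup killed by `p ^ m` of a finite group has order at most the `p`-part. -/
theorem card_le_of_killed {S H : AddSubgroup P} [Finite H] (hSH : S ≤ H) {m : ℕ}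
    (hS : ∀ x ∈ S, (p ^ m) • x = 0) : Nat.card S ≤ p ^ padicValNat p (Nat.card H) := by
  have : Finite S := Finite.of_injective _ (AddSubgroup.inclusion_injective hSH)
  have hpS : IsPGroup p (Multiplicative S) := fun x => ⟨m, by
    apply Multiplicative.toAdd.injective
    rw [toAdd_pow, toAdd_one]
    exact Subtype.ext (by rw [AddSubgroup.coe_nsmul, hS _ (Multiplicative.toAdd x).2]; rfl)⟩
  have : Finite (Multiplicative S) := Finite.of_equiv S Multiplicative.ofAdd
  obtain ⟨n, hn⟩ := IsPGroup.iff_card.1 hpS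
  have hn' : Nat.card S = p ^ n := by rw [← hn]; exact Nat.card_congr Multiplicative.ofAdd
  rw [hn']
  have hd : p ^ n ∣ Nat.card H := hn' ▸ AddSubgroup.card_dvd_of_le hSH
  exact Nat.pow_le_pow_right hp.out.pos
    ((padicValNat_dvd_iff_le (Nat.card_pos).ne').1 hd)

/-- The image of `(X - 1) ^ p ^ s` agrees with `X ^ p ^ s - 1` modulo `p`. -/
theorem exists_sub_one_pow (s : ℕ) (M : AddMonoid.End P) :
    ∃ R : AddMonoid.End P, (M - 1) ^ p ^ s = (M ^ p ^ s - 1) + (p : AddMonoid.End P) * R := by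
  set f : ℤ[X] := (X - 1) ^ p ^ s - (X ^ p ^ s - 1) with hf
  have h0 : f.map (Int.castRingHom (ZMod p)) = 0 := by
    simp [hf, Polynomial.map_sub, Polynomial.map_pow, sub_pow_char_pow]
  obtain ⟨g, hg⟩ : C (p : ℤ) ∣ f := by
    rw [C_dvd_iff_dvd_coeff]
    intro i
    have := congrArg (fun u : (ZMod p)[X] => u.coeff i) h0
    simp only [coeff_map, coeff_zero, eq_intCast] at this
    exact (ZMod.intCast_zmod_eq_zero_iff_dvd _ _).1 this
  refine ⟨aeval M g, ?_⟩
  have := congrArg (aeval M) hg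
  rw [hf, map_sub, map_mul, aeval_C] at this
  simp only [map_sub, map_pow, aeval_X, map_one, eq_intCast, Int.cast_natCast] at this
  rw [← this]
  abel

/-- The kernel of a power of an endomorphism, inside the `p`-torsion. -/
def kerPow {P : Type*} [AddCommGroup P] {p : ℕ} (M : AddMonoid.End P) (j : ℕ) : AddSubgroup P :=
  torSub p ⊓ (M ^ j : AddMonoid.End P).ker

omit hp in
theorem mem_kerPow {M : AddMonoid.End P} {j : ℕ} {x : P} :
    x ∈ kerPow (p := p) M j ↔ p • x = 0 ∧ (M ^ j : AddMonoid.End P) x = 0 := Iff.rfl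

omit hp in
theorem kerPow_step {M : AddMonoid.End P} {j : ℕ}
    (h : kerPow (p := p) M j = kerPow (p := p) M (j + 1)) :
    ∀ i, kerPow (p := p) M (j + i) = kerPow (p := p) M j := by
  intro i
  induction i with
  | zero => rfl
  | succ i ih =>
    refine le_antisymm (fun x hx => ?_) (fun x hx => ?_)
    · rw [mem_kerPow] at hx
      have h1 : M x ∈ kerPow (p := p) M (j + i) := by
        rw [mem_kerPow, ← map_nsmul, hx.1, map_zero]
        refine ⟨rfl, ?_⟩
        have := hx.2
        rwa [← add_assoc, pow_succ] at this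
      rw [ih, mem_kerPow] at h1
      rw [h, mem_kerPow, pow_succ]
      exact ⟨hx.1, h1.2⟩
    · rw [mem_kerPow] at hx ⊢
      refine ⟨hx.1, ?_⟩
      rw [show j + (i + 1) = (i + 1) + j by omega, pow_add]
      show (M ^ (i + 1) : AddMonoid.End P) ((M ^ j : AddMonoid.End P) x) = 0
      rw [hx.2, map_zero]

omit hp in
theorem two_pow_le_card_kerPow {M : AddMonoid.End P} {J : ℕ} (hJ : Finite (kerPow (p := p) M J))
    (hstep : ∀ j < J, kerPow (p := p) M j ≠ kerPow (p := p) M (j + 1)) :
    2 ^ J ≤ Nat.card (kerPow (p := p) M J) := by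
  induction J with
  | zero => exact Nat.one_le_iff_ne_zero.2 Nat.card_pos.ne'
  | succ J ih =>
    have hle : kerPow (p := p) M J ≤ kerPow (p := p) M (J + 1) := fun x hx => by
      rw [mem_kerPow] at hx ⊢
      refine ⟨hx.1, ?_⟩
      rw [pow_succ']
      show M ((M ^ J : AddMonoid.End P) x) = 0
      rw [hx.2, map_zero]
    have : Finite (kerPow (p := p) M J) :=
      Finite.of_injective _ (AddSubgroup.inclusion_injective hle)
    have h1 := ih inferInstance fun j hj => hstep j (hj.trans (Nat.lt_succ_self J))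
    obtain ⟨c, hc⟩ := AddSubgroup.card_dvd_of_le hle
    have hlt : Nat.card (kerPow (p := p) M J) < Nat.card (kerPow (p := p) M (J + 1)) :=
      lt_of_le_of_ne (AddSubgroup.card_le_of_le hle) fun heq =>
        hstep J (Nat.lt_succ_self J) (AddSubgroup.eq_of_le_of_card_ge hle heq.ge)
    have hc2 : 2 ≤ c := by
      rcases Nat.lt_or_ge c 2 with hc' | hc'
      · interval_cases c <;> simp_all
      · exact hc'
    rw [hc, pow_succ]
    exact Nat.mul_le_mul h1 hc2

theorem exists_exponent (p C d : ℕ) (hp : 2 ≤ p) : ∃ s, p * (C + d * s) < p ^ s := by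
  refine ⟨2 * (p * C + 2 * (p * d)), ?_⟩
  set K := p * C + 2 * (p * d) with hK
  calc p * (C + d * (2 * K)) < (K + 1) * (K + 1) := by
        have h1 : p * C ≤ K := Nat.le_add_right _ _
        have h2 : 2 * (p * d) ≤ K := Nat.le_add_left _ _
        nlinarith
    _ ≤ 2 ^ K * 2 ^ K := Nat.mul_le_mul Nat.lt_two_pow_self Nat.lt_two_pow_self
    _ = 2 ^ (2 * K) := by rw [← pow_add, two_mul]
    _ ≤ p ^ (2 * K) := Nat.pow_le_pow_left hp _

/-- A uniform bound on finite sets of `p`-torsion elements. -/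
theorem exists_card_le (hper : ∀ x : P, ∃ r : ℕ, r ≠ 0 ∧ x ∈ fixSub φ r)
    (hfin : ∀ r : ℕ, r ≠ 0 → Finite (fixSub φ r)) (C d : ℕ)
    (hval : ∀ r : ℕ, r ≠ 0 →
      padicValNat p (Nat.card (fixSub φ r)) ≤ C + d * padicValNat p r) :
    ∃ B : ℕ, ∀ S : Finset P, (∀ x ∈ S, p • x = 0) → S.card ≤ B := by
  classical
  obtain ⟨s0, hs0⟩ := exists_exponent p C d hp.out.two_le
  refine ⟨p ^ (C + d * s0), fun S hS => ?_⟩
  obtain ⟨r, hr, hSr⟩ := exists_period φ hper S
  obtain ⟨s, L, hL, rfl⟩ := Nat.exists_eq_pow_mul_and_not_dvd hr p hp.out.ne_one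
  have hL0 : L ≠ 0 := fun h => hL (h ▸ dvd_zero p)
  set M : AddMonoid.End P := φ ^ L - 1 with hM
  have hker : ∀ (t : ℕ) (x : P), p • x = 0 →
      ((M ^ p ^ t : AddMonoid.End P) x = 0 ↔ x ∈ fixSub φ (p ^ t * L)) := by
    intro t x hx
    obtain ⟨R, hR⟩ := exists_sub_one_pow (p := p) t (φ ^ L)
    rw [hM, hR, mem_fixSub, mul_comm (p ^ t) L, pow_mul]
    show ((φ ^ L) ^ p ^ t : AddMonoid.End P) x - x + p • R x = 0 ↔ _
    rw [← map_nsmul, hx, map_zero, add_zero, sub_eq_zero]
  have hcard : ∀ t, Finite (kerPow (p := p) M (p ^ t)) ∧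
      Nat.card (kerPow (p := p) M (p ^ t)) ≤ p ^ (C + d * t) := by
    intro t
    have hne : p ^ t * L ≠ 0 := mul_ne_zero (pow_ne_zero _ hp.out.ne_zero) hL0
    have := hfin _ hne
    have hle : kerPow (p := p) M (p ^ t) ≤ fixSub φ (p ^ t * L) := fun x hx =>
      (hker t x hx.1).1 hx.2
    refine ⟨Finite.of_injective _ (AddSubgroup.inclusion_injective hle), ?_⟩
    refine (card_le_of_killed (m := 1) hle fun x hx => by rw [pow_one]; exact hx.1).trans
      (Nat.pow_le_pow_right hp.out.pos ((hval _ hne).trans (le_of_eq ?_)))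
    rw [padicValNat.mul (pow_ne_zero _ hp.out.ne_zero) hL0, padicValNat.prime_pow,
      padicValNat.eq_zero_of_not_dvd hL, add_zero]
  have := (hcard s0).1
  obtain ⟨j, hj, hjeq⟩ : ∃ j, j < p ^ s0 ∧ kerPow (p := p) M j = kerPow (p := p) M (j + 1) := by
    by_contra h
    push Not at h
    have h1 := (two_pow_le_card_kerPow inferInstance h).trans (hcard s0).2
    have h2 : p ^ (C + d * s0) ≤ 2 ^ (p * (C + d * s0)) := by
      rw [pow_mul]; exact Nat.pow_le_pow_left Nat.lt_two_pow_self.le _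
    have h3 := Nat.pow_lt_pow_right Nat.one_lt_two hs0
    omega
  have hstab : ∀ i, j ≤ i → kerPow (p := p) M i = kerPow (p := p) M j := fun i hi => by
    obtain ⟨c, rfl⟩ := Nat.exists_eq_add_of_le hi
    exact kerPow_step hjeq c
  have hsub : ∀ x ∈ S, x ∈ kerPow (p := p) M (p ^ s0) := by
    intro x hx
    have h1 : x ∈ kerPow (p := p) M (p ^ (s + s0)) := by
      refine ⟨hS x hx, (hker _ x (hS x hx)).2 (fixSub_mono φ ?_ (hSr x hx))⟩
      exact mul_dvd_mul_right (pow_dvd_pow p (Nat.le_add_right s s0)) L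
    rw [hstab _ (hj.le.trans (Nat.pow_le_pow_right hp.out.pos (Nat.le_add_left s0 s)))] at h1
    rw [hstab _ hj.le]
    exact h1
  calc S.card ≤ Nat.card (kerPow (p := p) M (p ^ s0)) := by
        rw [← Nat.card_eq_finsetCard]
        exact Nat.card_le_card_of_injective
          (fun x : ↥S => (⟨x.1, hsub x.1 x.2⟩ : kerPow (p := p) M (p ^ s0)))
          fun a b h => Subtype.ext (congrArg (fun z : kerPow (p := p) M (p ^ s0) => z.1) h)
    _ ≤ _ := (hcard s0).2

/-- Growth of the `p`-power torsion. -/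
theorem exists_card_torSub_le (hper : ∀ x : P, ∃ r : ℕ, r ≠ 0 ∧ x ∈ fixSub φ r)
    (hfin : ∀ r : ℕ, r ≠ 0 → Finite (fixSub φ r)) (C d : ℕ)
    (hval : ∀ r : ℕ, r ≠ 0 →
      padicValNat p (Nat.card (fixSub φ r)) ≤ C + d * padicValNat p r) :
    ∃ C' : ℕ, ∀ m, Finite (torSub (P := P) (p ^ m)) ∧
      Nat.card (torSub (P := P) (p ^ m)) ≤ C' * p ^ (d * m) := by
  classical
  obtain ⟨B, hB⟩ := exists_card_le φ hper hfin C d hval
  have h1 : Finite (torSub (P := P) p) := by
    by_contra h
    rw [not_finite_iff_infinite] at h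
    obtain ⟨S, hS⟩ := Infinite.exists_subset_card_eq (torSub (P := P) p) (B + 1)
    have := hB (S.map (Function.Embedding.subtype _)) fun x hx => by
      obtain ⟨y, -, rfl⟩ := Finset.mem_map.1 hx
      exact y.2
    rw [Finset.card_map, hS] at this
    omega
  have := Fintype.ofFinite (torSub (P := P) p)
  obtain ⟨r0, hr0, hr0'⟩ := exists_period φ hper
    ((Finset.univ : Finset (torSub (P := P) p)).map (Function.Embedding.subtype _))
  have hbase : torSub (P := P) p ≤ fixSub φ r0 := fun x hx =>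
    hr0' x (Finset.mem_map.2 ⟨⟨x, hx⟩, Finset.mem_univ _, rfl⟩)
  have hfix : ∀ m, torSub (P := P) (p ^ (m + 1)) ≤ fixSub φ (r0 * p ^ m) := by
    intro m
    induction m with
    | zero => simpa using hbase
    | succ m ih =>
      intro x hx
      rw [mem_torSub] at hx
      set G : AddMonoid.End P := φ ^ (r0 * p ^ m) with hG
      have hpx : G (p • x) = p • x := ih (by rw [mem_torSub, smul_smul, ← pow_succ, hx])
      set y := G x - x with hy
      have hpy : p • y = 0 := by rw [hy, smul_sub, ← map_nsmul, hpx, sub_self]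
      have hyfix : G y = y :=
        ih (by rw [mem_torSub, pow_succ, mul_smul, hpy, smul_zero])
      have hi : ∀ i : ℕ, (G ^ i : AddMonoid.End P) x = x + i • y := by
        intro i
        induction i with
        | zero => simp
        | succ i ihi =>
          rw [pow_succ']
          show G ((G ^ i : AddMonoid.End P) x) = _
          rw [ihi, map_add, map_nsmul, hyfix, succ_nsmul, hy]
          abel
      rw [mem_fixSub, pow_succ, ← mul_assoc, pow_mul, ← hG, hi, hpy, add_zero]
  refine ⟨p ^ (C + d * padicValNat p r0), fun m => ?_⟩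
  rcases m with _ | m
  · have hbot : torSub (P := P) (p ^ 0) = ⊥ := by
      ext x
      simp [mem_torSub]
    rw [hbot, AddSubgroup.card_bot, mul_zero, pow_zero, mul_one]
    exact ⟨inferInstance, Nat.one_le_pow _ _ hp.out.pos⟩
  have hne : r0 * p ^ m ≠ 0 := mul_ne_zero hr0 (pow_ne_zero _ hp.out.ne_zero)
  have := hfin _ hne
  refine ⟨Finite.of_injective _ (AddSubgroup.inclusion_injective (hfix m)),
    (card_le_of_killed (hfix m) fun x hx => hx).trans ?_⟩
  rw [← pow_add]
  refine Nat.pow_le_pow_right hp.out.pos ((hval _ hne).trans ?_)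
  rw [padicValNat.mul hr0 (pow_ne_zero _ hp.out.ne_zero), padicValNat.prime_pow, mul_add, Nat.mul_succ]
  omega

end FLTAgent.RedSurj
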