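import Mathlib

/-!
# The `p`-adic size of products of `1 - α ^ r`

`exists_le_norm_one_sub_pow`: if `‖α‖ ≤ 1` and no positive power of `α` is `1`, then
`‖1 - α ^ r‖` is at least a constant times `‖r‖`.  Hence, for a sequence `h r` of positive
integers given by such products over a multiset of `α`'s, the `p`-adic valuation of `h r` is at
most `C + card • v_p r` (`exists_padicValNat_le`).
-/

set_option autoImplicit false

noncomputable section

namespace FLTAgent.RedSurj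

variable {p : ℕ} [Fact p.Prime]

local notation "Cp" => PadicAlgCl p

theorem norm_natCast_cl (r : ℕ) : ‖(r : Cp)‖ = ‖(r : ℚ_[p])‖ := by
  rw [← map_natCast (algebraMap ℚ_[p] Cp), PadicAlgCl.norm_extends]

theorem norm_natCast_le_one (r : ℕ) : ‖(r : Cp)‖ ≤ 1 := by
  rw [norm_natCast_cl]; exact_mod_cast Padic.norm_int_le_one (r : ℤ)

theorem norm_natCast_of_coprime {r : ℕ} (h : ¬ p ∣ r) : ‖(r : Cp)‖ = 1 := by
  rw [norm_natCast_cl, Padic.norm_natCast_eq_one_iff]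
  exact (Fact.out : p.Prime).coprime_iff_not_dvd.2 h

theorem norm_p_cl : ‖(p : Cp)‖ = (p : ℝ)⁻¹ := by rw [norm_natCast_cl, Padic.norm_p]

theorem norm_p_cl_pos : 0 < ‖(p : Cp)‖ := by
  rw [norm_p_cl]
  have : 0 < p := (Fact.out : p.Prime).pos
  positivity

theorem norm_p_cl_lt_one : ‖(p : Cp)‖ < 1 := by rw [norm_natCast_cl]; exact Padic.norm_p_lt_one

theorem norm_add_eq_of_lt {x y : Cp} (h : ‖y‖ < ‖x‖) : ‖x + y‖ = ‖x‖ := by
  rw [IsUltrametricDist.norm_add_eq_max_of_norm_ne_norm h.ne', max_eq_left h.le]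

/-- The `p`-th power of `1 + x` is `1 + p x` up to `max (|p| |x|²) |x|^p`. -/
theorem norm_pow_prime_sub_le {x : Cp} (hx : ‖x‖ ≤ 1) :
    ‖(1 + x) ^ p - 1 - (p : Cp) * x‖ ≤ max (‖(p : Cp)‖ * ‖x‖ ^ 2) (‖x‖ ^ p) := by
  have hp := (Fact.out : p.Prime)
  have h : (1 + x) ^ p - 1 - (p : Cp) * x =
      ∑ i ∈ Finset.Ico 2 (p + 1), x ^ i * (p.choose i : Cp) := by
    rw [add_comm 1 x, add_pow, Finset.range_eq_Ico,
      Finset.sum_eq_sum_Ico_succ_bot (by omega), Finset.sum_eq_sum_Ico_succ_bot (by have := hp.two_le; omega)]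
    simp only [one_pow, mul_one, pow_zero, Nat.choose_zero_right, Nat.cast_one, zero_add, pow_one,
      Nat.choose_one_right, one_add_one_eq_two]
    ring
  rw [h]
  refine IsUltrametricDist.norm_sum_le_of_forall_le_of_nonneg
    (le_max_of_le_right (by positivity)) fun i hi => ?_
  rw [Finset.mem_Ico] at hi
  rw [norm_mul, norm_pow]
  rcases eq_or_ne i p with rfl | hip
  · refine le_max_of_le_right ?_
    rw [Nat.choose_self, Nat.cast_one, norm_one, mul_one]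
  · refine le_max_of_le_left ?_
    obtain ⟨m, hm⟩ := hp.dvd_choose_self (show i ≠ 0 by omega) (show i < p by omega)
    rw [hm, Nat.cast_mul, norm_mul, mul_comm]
    calc ‖(p : Cp)‖ * ‖(m : Cp)‖ * ‖x‖ ^ i ≤ ‖(p : Cp)‖ * 1 * ‖x‖ ^ 2 := by
          refine mul_le_mul (mul_le_mul_of_nonneg_left (norm_natCast_le_one m) (norm_nonneg _))
            (pow_le_pow_of_le_one (norm_nonneg _) hx hi.1) (by positivity) (by positivity)
      _ = _ := by rw [mul_one]

theorem norm_eq_one_of_sub_one {β : Cp} (hβ : ‖β - 1‖ < 1) : ‖β‖ = 1 := by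
  have := norm_add_eq_of_lt (x := (1 : Cp)) (y := β - 1) (by rwa [norm_one])
  rwa [add_sub_cancel, norm_one] at this

theorem norm_pow_sub_one_le {β : Cp} (hβ : ‖β‖ ≤ 1) (i : ℕ) : ‖β ^ i - 1‖ ≤ ‖β - 1‖ := by
  induction i with
  | zero => simp
  | succ i ih =>
    have h : β ^ (i + 1) - 1 = β * (β ^ i - 1) + (β - 1) := by ring
    rw [h]
    refine (IsUltrametricDist.norm_add_le_max _ _).trans (max_le ?_ le_rfl)
    rw [norm_mul]
    exact (mul_le_of_le_one_left (norm_nonneg _) hβ).trans ih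

theorem norm_pow_sub_one_of_coprime {β : Cp} (hβ : ‖β - 1‖ < 1) {m : ℕ} (hm : ¬ p ∣ m) :
    ‖β ^ m - 1‖ = ‖β - 1‖ := by
  have h1 := norm_eq_one_of_sub_one hβ
  have h2 : ‖∑ i ∈ Finset.range m, β ^ i‖ = 1 := by
    have h : ∑ i ∈ Finset.range m, β ^ i = (m : Cp) + ∑ i ∈ Finset.range m, (β ^ i - 1) := by
      rw [Finset.sum_sub_distrib]
      simp
    rw [h, norm_add_eq_of_lt, norm_natCast_of_coprime hm]
    rw [norm_natCast_of_coprime hm]
    exact lt_of_le_of_lt (IsUltrametricDist.norm_sum_le_of_forall_le_of_nonneg (norm_nonneg _)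
      fun i _ => norm_pow_sub_one_le h1.le i) hβ
  rw [← geom_sum_mul β m, norm_mul, h2, one_mul]

theorem exists_le_norm_pow_sub_one_of_near {β : Cp} (hβ : ‖β - 1‖ < 1)
    (hne : ∀ r : ℕ, r ≠ 0 → β ^ r ≠ 1) :
    ∃ c : ℝ, 0 < c ∧ ∀ r : ℕ, r ≠ 0 → c * ‖(r : Cp)‖ ≤ ‖β ^ r - 1‖ := by
  have hp := (Fact.out : p.Prime)
  set P : ℝ := ‖(p : Cp)‖ with hP
  have hP0 : 0 < P := norm_p_cl_pos
  set t : ℕ → ℝ := fun s => ‖β ^ p ^ s - 1‖ with ht
  have ht1 : ∀ s, t s < 1 := fun s =>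
    lt_of_le_of_lt (norm_pow_sub_one_le (norm_eq_one_of_sub_one hβ).le _) hβ
  have ht0 : ∀ s, 0 < t s := fun s =>
    norm_pos_iff.2 (sub_ne_zero.2 (hne _ (pow_ne_zero _ hp.ne_zero)))
  have hsucc : ∀ s, ‖β ^ p ^ (s + 1) - 1 - (p : Cp) * (β ^ p ^ s - 1)‖ ≤
      max (P * t s ^ 2) (t s ^ p) := fun s => by
    have := norm_pow_prime_sub_le (x := β ^ p ^ s - 1) (ht1 s).le
    rwa [add_sub_cancel, ← pow_mul, ← pow_succ] at this
  have hle : ∀ s, t (s + 1) ≤ t s * max P (t s ^ (p - 1)) := fun s => by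
    have hsplit : β ^ p ^ (s + 1) - 1 = (p : Cp) * (β ^ p ^ s - 1) +
        (β ^ p ^ (s + 1) - 1 - (p : Cp) * (β ^ p ^ s - 1)) := by ring
    show ‖β ^ p ^ (s + 1) - 1‖ ≤ _
    rw [hsplit]
    refine (IsUltrametricDist.norm_add_le_max _ _).trans (max_le ?_ ((hsucc s).trans (max_le ?_ ?_)))
    · rw [norm_mul, mul_comm]
      exact mul_le_mul_of_nonneg_left (le_max_left _ _) (ht0 s).le
    · calc P * t s ^ 2 ≤ P * t s := by
            refine mul_le_mul_of_nonneg_left ?_ hP0.le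
            rw [sq]; exact mul_le_of_le_one_left (ht0 s).le (ht1 s).le
        _ ≤ _ := by rw [mul_comm]; exact mul_le_mul_of_nonneg_left (le_max_left _ _) (ht0 s).le
    · calc t s ^ p = t s * t s ^ (p - 1) := by rw [← pow_succ', Nat.sub_add_cancel hp.one_le]
        _ ≤ _ := mul_le_mul_of_nonneg_left (le_max_right _ _) (ht0 s).le
  have hpm : p - 1 ≠ 0 := by have := hp.two_le; omega
  set ρ : ℝ := max P (t 0 ^ (p - 1)) with hρ
  have hρ1 : ρ < 1 := max_lt norm_p_cl_lt_one (pow_lt_one₀ (ht0 0).le (ht1 0) hpm)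
  have hρ0 : 0 ≤ ρ := hP0.le.trans (le_max_left _ _)
  have hdecay : ∀ s, t s ≤ t 0 * ρ ^ s := by
    intro s
    induction s with
    | zero => simp
    | succ s ih =>
      have h1 : t s ≤ t 0 := ih.trans (mul_le_of_le_one_right (ht0 0).le (pow_le_one₀ hρ0 hρ1.le))
      refine (hle s).trans ?_
      rw [pow_succ, ← mul_assoc]
      exact mul_le_mul ih (max_le_max le_rfl (pow_le_pow_left₀ (ht0 s).le h1 _))
        (hP0.le.trans (le_max_left _ _)) (by positivity)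
  obtain ⟨s0, hs0⟩ : ∃ s0, t s0 ^ (p - 1) < P := by
    obtain ⟨s, hs⟩ := exists_pow_lt_of_lt_one hP0 hρ1
    refine ⟨s, lt_of_le_of_lt ?_ hs⟩
    calc t s ^ (p - 1) ≤ t s := pow_le_of_le_one (ht0 s).le (ht1 s).le hpm
      _ ≤ t 0 * ρ ^ s := hdecay s
      _ ≤ ρ ^ s := mul_le_of_le_one_left (by positivity) (ht1 0).le
  have hmono : ∀ s, t (s + 1) ≤ t s := fun s =>
    (hle s).trans (mul_le_of_le_one_right (ht0 s).le
      (max_le norm_p_cl_lt_one.le (pow_le_one₀ (ht0 s).le (ht1 s).le)))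
  have hanti : Antitone t := antitone_nat_of_succ_le hmono
  have heq : ∀ i, t (s0 + i) = P ^ i * t s0 := by
    intro i
    induction i with
    | zero => simp
    | succ i ih =>
      have hsm : t (s0 + i) ^ (p - 1) < P :=
        lt_of_le_of_lt (pow_le_pow_left₀ (ht0 _).le (hanti (Nat.le_add_right _ _)) _) hs0
      have hdom : max (P * t (s0 + i) ^ 2) (t (s0 + i) ^ p) < P * t (s0 + i) := by
        refine max_lt ?_ ?_
        · rw [sq, ← mul_assoc]
          exact mul_lt_of_lt_one_right (mul_pos hP0 (ht0 _)) (ht1 _)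
        · calc t (s0 + i) ^ p = t (s0 + i) ^ (p - 1) * t (s0 + i) := by
                rw [← pow_succ, Nat.sub_add_cancel hp.one_le]
            _ < _ := mul_lt_mul_of_pos_right hsm (ht0 _)
      have hlt : ‖β ^ p ^ (s0 + i + 1) - 1 - (p : Cp) * (β ^ p ^ (s0 + i) - 1)‖ <
          ‖(p : Cp) * (β ^ p ^ (s0 + i) - 1)‖ := by
        rw [norm_mul]; exact lt_of_le_of_lt (hsucc _) hdom
      have := norm_add_eq_of_lt hlt
      rw [add_sub_cancel, norm_mul] at this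
      show ‖β ^ p ^ (s0 + i + 1) - 1‖ = _
      rw [this, show ‖β ^ p ^ (s0 + i) - 1‖ = P ^ i * t s0 from ih, pow_succ]
      ring
  refine ⟨t s0, ht0 _, fun r hr => ?_⟩
  obtain ⟨s, m, hm, rfl⟩ := Nat.exists_eq_pow_mul_and_not_dvd hr p hp.ne_one
  rw [pow_mul, norm_pow_sub_one_of_coprime (ht1 s) hm, Nat.cast_mul, norm_mul,
    norm_natCast_of_coprime hm, mul_one, Nat.cast_pow, norm_pow, mul_comm]
  show P ^ s * t s0 ≤ t s
  rcases le_total s s0 with h | h
  · exact (mul_le_of_le_one_left (ht0 _).le (pow_le_one₀ hP0.le norm_p_cl_lt_one.le)).trans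
      (hanti h)
  · obtain ⟨i, rfl⟩ := Nat.exists_eq_add_of_le h
    rw [heq i, pow_add, mul_assoc]
    refine mul_le_of_le_one_left ?_ (pow_le_one₀ hP0.le norm_p_cl_lt_one.le)
    positivity

/-- The size of `1 - α ^ r` is at least a constant times the size of `r`. -/
theorem exists_le_norm_one_sub_pow {α : Cp} (hα : ‖α‖ ≤ 1)
    (hne : ∀ r : ℕ, r ≠ 0 → α ^ r ≠ 1) :
    ∃ c : ℝ, 0 < c ∧ ∀ r : ℕ, r ≠ 0 → c * ‖(r : Cp)‖ ≤ ‖1 - α ^ r‖ := by
  classical
  by_cases h : ∃ e : ℕ, e ≠ 0 ∧ ‖α ^ e - 1‖ < 1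
  · obtain ⟨he0, he1⟩ := Nat.find_spec h
    set e := Nat.find h with he
    obtain ⟨c, hc0, hc⟩ := exists_le_norm_pow_sub_one_of_near he1 fun r hr => by
      rw [← pow_mul]; exact hne _ (mul_ne_zero he0 hr)
    refine ⟨min c 1, lt_min hc0 one_pos, fun r hr => ?_⟩
    rw [norm_sub_rev]
    by_cases hd : e ∣ r
    · obtain ⟨a, rfl⟩ := hd
      rw [pow_mul]
      refine le_trans (mul_le_mul (min_le_left _ _) ?_ (norm_nonneg _) hc0.le)
        (hc a (right_ne_zero_of_mul hr))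
      rw [Nat.cast_mul, norm_mul]
      exact mul_le_of_le_one_left (norm_nonneg _) (norm_natCast_le_one e)
    · have hb : r % e ≠ 0 := fun hb => hd (Nat.dvd_of_mod_eq_zero hb)
      have hge : 1 ≤ ‖α ^ (r % e) - 1‖ := by
        by_contra hlt
        exact Nat.find_min h (Nat.mod_lt r (Nat.pos_of_ne_zero he0)) ⟨hb, not_le.1 hlt⟩
      set Q := (α ^ e) ^ (r / e) with hQ
      have hQlt : ‖Q - 1‖ < 1 :=
        lt_of_le_of_lt (norm_pow_sub_one_le (norm_eq_one_of_sub_one he1).le _) he1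
      have hQ1 : ‖Q‖ = 1 := norm_eq_one_of_sub_one hQlt
      have hkey : α ^ r - 1 = Q * (α ^ (r % e) - 1) + (Q - 1) := by
        rw [hQ, mul_sub, mul_one, ← pow_mul, ← pow_add, Nat.div_add_mod]
        ring
      rw [hkey, norm_add_eq_of_lt (by rw [norm_mul, hQ1, one_mul]; linarith), norm_mul, hQ1,
        one_mul]
      exact le_trans (mul_le_one₀ (min_le_right _ _) (norm_nonneg _) (norm_natCast_le_one r)) hge
  · refine ⟨1, one_pos, fun r hr => ?_⟩
    rw [one_mul, norm_sub_rev]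
    exact (norm_natCast_le_one r).trans (not_lt.1 fun h' => h ⟨r, hr, h'⟩)

/-- A product of `1 - α ^ r` over a multiset. -/
theorem exists_le_norm_prod (s : Multiset Cp) (hα : ∀ α ∈ s, ‖α‖ ≤ 1)
    (hne : ∀ α ∈ s, ∀ r : ℕ, r ≠ 0 → α ^ r ≠ 1) :
    ∃ c : ℝ, 0 < c ∧ ∀ r : ℕ, r ≠ 0 →
      c * ‖(r : Cp)‖ ^ Multiset.card s ≤ ‖(s.map fun α => 1 - α ^ r).prod‖ := by
  induction s using Multiset.induction_on with
  | empty => exact ⟨1, one_pos, fun r _ => by simp⟩
  | cons a s ih =>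
    obtain ⟨c, hc0, hc⟩ := ih (fun α h => hα α (Multiset.mem_cons_of_mem h))
      fun α h => hne α (Multiset.mem_cons_of_mem h)
    obtain ⟨d, hd0, hd⟩ := exists_le_norm_one_sub_pow (hα a (Multiset.mem_cons_self a s))
      (hne a (Multiset.mem_cons_self a s))
    refine ⟨d * c, mul_pos hd0 hc0, fun r hr => ?_⟩
    rw [Multiset.map_cons, Multiset.prod_cons, norm_mul, Multiset.card_cons, pow_succ]
    calc d * c * (‖(r : Cp)‖ ^ Multiset.card s * ‖(r : Cp)‖)
        = (d * ‖(r : Cp)‖) * (c * ‖(r : Cp)‖ ^ Multiset.card s) := by ring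
      _ ≤ _ := mul_le_mul (hd r hr) (hc r hr) (by positivity) (norm_nonneg _)

/-- Valuations of a sequence given by such products grow at most like `card • v_p(r)`. -/
theorem exists_padicValNat_le (h : ℕ → ℕ) (hpos : ∀ r, r ≠ 0 → h r ≠ 0) (s : Multiset Cp)
    (hα : ∀ α ∈ s, ‖α‖ ≤ 1)
    (hh : ∀ r, r ≠ 0 → (h r : Cp) = (s.map fun α => 1 - α ^ r).prod) :
    ∃ C : ℕ, ∀ r, r ≠ 0 →
      padicValNat p (h r) ≤ C + Multiset.card s * padicValNat p r := by
  have hp := (Fact.out : p.Prime)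
  have hne : ∀ α ∈ s, ∀ r : ℕ, r ≠ 0 → α ^ r ≠ 1 := fun α hα' r hr h1 => by
    have : (h r : Cp) = 0 := by
      rw [hh r hr]
      exact Multiset.prod_eq_zero (Multiset.mem_map.2 ⟨α, hα', by rw [h1, sub_self]⟩)
    exact hpos r hr (Nat.cast_eq_zero.1 this)
  obtain ⟨c, hc0, hc⟩ := exists_le_norm_prod s hα hne
  have hval : ∀ n : ℕ, n ≠ 0 → ‖(n : Cp)‖ = ((p : ℝ)⁻¹) ^ padicValNat p n := fun n hn => by
    obtain ⟨v, m, hm, rfl⟩ := Nat.exists_eq_pow_mul_and_not_dvd hn p hp.ne_one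
    rw [Nat.cast_mul, norm_mul, norm_natCast_of_coprime hm, mul_one, Nat.cast_pow, norm_pow,
      norm_p_cl, padicValNat.mul (pow_ne_zero _ hp.ne_zero) (fun h0 : m = 0 => hm (by rw [h0]; exact dvd_zero p)),
      padicValNat.prime_pow, padicValNat.eq_zero_of_not_dvd hm, add_zero]
  obtain ⟨C, hC⟩ := exists_pow_lt_of_lt_one hc0
    (show (p : ℝ)⁻¹ < 1 from inv_lt_one_of_one_lt₀ (by exact_mod_cast hp.one_lt))
  refine ⟨C, fun r hr => ?_⟩
  have h1 := hc r hr
  rw [← hh r hr, hval _ hr, hval _ (hpos r hr), ← pow_mul] at h1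
  have hpi : (0 : ℝ) < (p : ℝ)⁻¹ := by have := hp.pos; positivity
  have h2 : ((p : ℝ)⁻¹) ^ (C + padicValNat p r * Multiset.card s) <
      ((p : ℝ)⁻¹) ^ padicValNat p (h r) := by
    rw [pow_add]
    exact lt_of_lt_of_le (mul_lt_mul_of_pos_right hC (pow_pos hpi _)) h1
  have := (pow_lt_pow_iff_right_of_lt_one₀ hpi
    (inv_lt_one_of_one_lt₀ (by exact_mod_cast hp.one_lt))).1 h2
  rw [mul_comm] at this
  omega

end FLTAgent.RedSurj
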