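import Mathlib

/-!
# The class number formula from counting data

`exists_roots_of_counts`: numbers `A r d` of fixed effective divisors satisfying the recursion
with the numbers of fixed places and the Riemann–Roch count give `h r = ∏ (1 - α ^ r)` over a
multiset of `2 g` algebraic integers.  The numerator `lser` of the zeta series is a polynomial of
degree at most `2 g`; its logarithmic derivative determines the numerators for all `r`.
-/

set_option autoImplicit false

noncomputable section

open PowerSeries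

namespace FLTAgent.RedSurj

variable {R S : Type*} [CommRing R] [CommRing S]

/-- `X d/dX` on power series. -/
def theta (F : PowerSeries R) : PowerSeries R := X * d⁄dX R F

theorem coeff_theta (F : PowerSeries R) (n : ℕ) : coeff n (theta F) = n * coeff n F := by
  rcases n with _ | n
  · simp [theta]
  · rw [theta, coeff_succ_X_mul, coeff_derivative, mul_comm]
    push_cast
    ring

theorem theta_mul (F G : PowerSeries R) : theta (F * G) = F * theta G + G * theta F := by
  simp only [theta, Derivation.leibniz, smul_eq_mul]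
  ring

theorem theta_one : theta (1 : PowerSeries R) = 0 := by
  ext n
  rcases n with _ | n <;> simp [coeff_theta, coeff_one]

/-- `∑_{s ≥ 1} β^s X^s`. -/
def pser (β : R) : PowerSeries R := mk fun s => if s = 0 then 0 else β ^ s

theorem pser_mul (β : R) : pser β * (1 - C β * X) = C β * X := by
  ext n
  rcases n with _ | n
  · simp [pser]
  · rw [mul_sub, mul_one, map_sub, ← mul_assoc, coeff_succ_mul_X, coeff_mul_C, coeff_C_mul,
      coeff_X]
    rcases n with _ | n <;> simp [pser, pow_succ]

theorem theta_linear (β : R) : theta (1 - C β * X) = -pser β * (1 - C β * X) := by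
  rw [neg_mul, pser_mul]
  ext n
  rw [coeff_theta]
  rcases n with _ | _ | n <;> simp [coeff_one]

theorem theta_prod (s : Multiset R) :
    theta (s.map fun β => 1 - C β * X).prod =
      -(s.map pser).sum * (s.map fun β => 1 - C β * X).prod := by
  induction s using Multiset.induction_on with
  | empty => simp [theta_one]
  | cons a s ih =>
    simp only [Multiset.map_cons, Multiset.prod_cons, Multiset.sum_cons]
    rw [theta_mul, ih, theta_linear]
    ring

theorem coeff_zero_prod (s : Multiset R) :
    coeff 0 (s.map fun β => 1 - C β * X).prod = 1 := by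
  rw [coeff_zero_eq_constantCoeff, map_multiset_prod, Multiset.map_map]
  exact Multiset.prod_eq_one fun x hx => by
    obtain ⟨β, -, rfl⟩ := Multiset.mem_map.1 hx
    simp

theorem coeff_sum_pser (s : Multiset R) {n : ℕ} (hn : n ≠ 0) :
    coeff n (s.map pser).sum = (s.map fun β => β ^ n).sum := by
  rw [map_multiset_sum, Multiset.map_map]
  congr 1
  exact Multiset.map_congr rfl fun β _ => by simp [pser, hn]

theorem coeff_zero_sum_pser (s : Multiset R) : coeff 0 (s.map pser).sum = 0 := by
  rw [map_multiset_sum, Multiset.map_map]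
  exact Multiset.sum_eq_zero fun x hx => by
    obtain ⟨β, -, rfl⟩ := Multiset.mem_map.1 hx
    simp [pser]

theorem eq_of_theta_eq [IsDomain R] [CharZero R] {F G H : PowerSeries R} (hF : theta F = H * F)
    (hG : theta G = H * G) (hH : coeff 0 H = 0) (h0 : coeff 0 F = coeff 0 G) : F = G := by
  rw [← sub_eq_zero]
  set D := F - G with hD
  have hth : theta D = H * D := by
    rw [hD, mul_sub, ← hF, ← hG]
    ext n
    simp only [coeff_theta, map_sub, mul_sub]
  ext n
  rw [map_zero]
  induction n using Nat.strong_induction_on with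
  | _ n ih =>
    rcases n with _ | n
    · rw [hD, map_sub, h0, sub_self]
    · have h := congrArg (coeff (n + 1)) hth
      rw [coeff_theta, coeff_mul, Finset.sum_eq_zero] at h
      · exact (mul_eq_zero.1 h).resolve_left (Nat.cast_ne_zero.2 (Nat.succ_ne_zero n))
      · intro ij hij
        rw [Finset.HasAntidiagonal.mem_antidiagonal] at hij
        rcases Nat.eq_zero_or_pos ij.1 with h1 | h1
        · rw [h1, hH, zero_mul]
        · rw [ih ij.2 (by omega), mul_zero]

section Counts

variable (R) (q : ℕ) (A : ℕ → ℕ → ℕ) (N : ℕ → ℕ) (r : ℕ)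

/-- The generating series of the fixed effective divisors. -/
def zser : PowerSeries R := mk fun d => (A r d : R)

/-- The generating series of the fixed places. -/
def nser : PowerSeries R := mk fun s => if s = 0 then 0 else (N (r * s) : R)

/-- The numerator of the zeta series. -/
def lser : PowerSeries R := (1 - C (1 : R) * X) * ((1 - C ((q : R) ^ r) * X) * zser R A r)

theorem map_lser (f : R →+* S) : (lser R q A r).map f = lser S q A r := by
  simp only [lser, map_mul, map_sub, map_one, map_X, map_pow, map_natCast]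
  congr 2
  ext n
  simp [zser]

theorem theta_zser (hrec : ∀ d, d * A r d = ∑ s ∈ Finset.Icc 1 d, N (r * s) * A r (d - s)) :
    theta (zser R A r) = nser R N r * zser R A r := by
  ext d
  rw [coeff_theta, coeff_mul, Finset.Nat.sum_antidiagonal_eq_sum_range_succ fun i j =>
    coeff i (nser R N r) * coeff j (zser R A r)]
  simp only [zser, nser, coeff_mk, ite_mul, zero_mul]
  rw [← Nat.cast_mul, hrec d, Nat.cast_sum, Finset.range_eq_Ico,
    Finset.sum_eq_sum_Ico_succ_bot (Nat.succ_pos d), if_pos rfl, zero_add]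
  refine Finset.sum_congr (by ext; simp) fun s hs => ?_
  rw [Finset.mem_Ico] at hs
  rw [if_neg (by omega), Nat.cast_mul]

theorem theta_lser (hrec : ∀ d, d * A r d = ∑ s ∈ Finset.Icc 1 d, N (r * s) * A r (d - s)) :
    theta (lser R q A r) =
      (nser R N r - pser 1 - pser ((q : R) ^ r)) * lser R q A r := by
  rw [lser, theta_mul, theta_mul, theta_linear, theta_linear, theta_zser R A N r hrec]
  ring

variable {R}

theorem lser_eq : lser R q A r = zser R A r - C (1 + (q : R) ^ r) * (X * zser R A r) +
    C ((q : R) ^ r) * (X * (X * zser R A r)) := by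
  rw [lser, map_add, map_one]
  ring

theorem coeff_lser_zero : coeff 0 (lser R q A r) = A r 0 := by
  simp [lser, zser]

theorem coeff_lser_one :
    coeff 1 (lser R q A r) = A r 1 - (1 + (q : R) ^ r) * A r 0 := by
  rw [lser_eq, map_add, map_sub]
  simp only [coeff_C_mul, coeff_succ_X_mul, coeff_zero_X_mul, zser, coeff_mk, mul_zero, add_zero]

theorem coeff_lser_add_two (n : ℕ) :
    coeff (n + 2) (lser R q A r) =
      A r (n + 2) - (1 + (q : R) ^ r) * A r (n + 1) + (q : R) ^ r * A r n := by
  rw [lser_eq, map_add, map_sub]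
  simp only [coeff_C_mul, coeff_succ_X_mul, zser, coeff_mk]

theorem sum_coeff_lser (D : ℕ) :
    ∑ d ∈ Finset.range (D + 2), coeff d (lser R q A r) =
      A r (D + 1) - (q : R) ^ r * A r D := by
  induction D with
  | zero =>
    rw [Finset.sum_range_succ, Finset.sum_range_one, coeff_lser_zero, coeff_lser_one]
    ring
  | succ D ih =>
    rw [Finset.sum_range_succ, ih, coeff_lser_add_two]
    ring

variable {g : ℕ} (h : ℕ → ℕ)

theorem coeff_lser_eq_zero [IsDomain R] [CharZero R] (hq : 2 ≤ q) (hr : r ≠ 0)
    (hA0 : A r 0 = 1)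
    (hRR : ∀ d, 2 * g ≤ d + 1 →
      ((q : ℤ) ^ r - 1) * A r d + h r = h r * ((q : ℤ) ^ r) ^ (d + 1 - g))
    {d : ℕ} (hd : 2 * g < d) : coeff d (lser R q A r) = 0 := by
  have hRR' : ∀ d, 2 * g ≤ d + 1 →
      ((q : R) ^ r - 1) * A r d + h r = h r * ((q : R) ^ r) ^ (d + 1 - g) := fun d hd => by
    have := congrArg (fun z : ℤ => (z : R)) (hRR d hd)
    simpa using this
  have hQ : (q : R) ^ r - 1 ≠ 0 := by
    rw [sub_ne_zero]
    exact_mod_cast (Nat.one_lt_pow hr (show 1 < q by omega)).ne'
  refine (mul_eq_zero.1 (?_ : ((q : R) ^ r - 1) * coeff d (lser R q A r) = 0)).resolve_left hQ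
  rcases d with _ | _ | n
  · omega
  · obtain rfl : g = 0 := by omega
    have h0 := hRR' 0 (Nat.zero_le _)
    have h1 := hRR' 1 (Nat.zero_le _)
    simp only [hA0, Nat.cast_one, mul_one, Nat.sub_zero, zero_add, pow_one] at h0
    simp only [Nat.sub_zero] at h1
    rw [coeff_lser_one, hA0, Nat.cast_one, mul_one]
    linear_combination h1 - (1 + (q : R) ^ r) * h0
  · have h0 := hRR' n (by omega)
    have h1 := hRR' (n + 1) (by omega)
    have h2 := hRR' (n + 2) (by omega)
    rw [show n + 1 + 1 - g = n + 1 - g + 1 by omega, pow_succ] at h1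
    rw [show n + 2 + 1 - g = n + 1 - g + 2 by omega, pow_add] at h2
    rw [coeff_lser_add_two]
    linear_combination h2 - (1 + (q : R) ^ r) * h1 + (q : R) ^ r * h0

theorem sum_coeff_lser_eq [IsDomain R] [CharZero R] (hq : 2 ≤ q) (hr : r ≠ 0) (hA0 : A r 0 = 1)
    (hRR : ∀ d, 2 * g ≤ d + 1 →
      ((q : ℤ) ^ r - 1) * A r d + h r = h r * ((q : ℤ) ^ r) ^ (d + 1 - g)) :
    ∑ d ∈ Finset.range (2 * g + 1), coeff d (lser R q A r) = h r := by
  have hQ : (q : R) ^ r - 1 ≠ 0 := by
    rw [sub_ne_zero]
    exact_mod_cast (Nat.one_lt_pow hr (show 1 < q by omega)).ne'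
  have hlast := coeff_lser_eq_zero q A r h hq hr hA0 hRR (R := R)
    (show 2 * g < 2 * g + 1 by omega)
  have hs := sum_coeff_lser (R := R) q A r (2 * g)
  rw [Finset.sum_range_succ, hlast, add_zero] at hs
  rw [hs]
  have h0 : ((q : R) ^ r - 1) * A r (2 * g) + h r = h r * ((q : R) ^ r) ^ (2 * g + 1 - g) := by
    simpa using congrArg (fun z : ℤ => (z : R)) (hRR (2 * g) (by omega))
  have h1 : ((q : R) ^ r - 1) * A r (2 * g + 1) + h r =
      h r * ((q : R) ^ r) ^ (2 * g + 1 + 1 - g) := by
    simpa using congrArg (fun z : ℤ => (z : R)) (hRR (2 * g + 1) (by omega))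
  rw [show 2 * g + 1 + 1 - g = 2 * g + 1 - g + 1 by omega, pow_succ] at h1
  apply mul_left_cancel₀ hQ
  linear_combination h1 - (q : R) ^ r * h0

theorem trunc_lser [IsDomain R] [CharZero R] (hq : 2 ≤ q) (hr : r ≠ 0) (hA0 : A r 0 = 1)
    (hRR : ∀ d, 2 * g ≤ d + 1 →
      ((q : ℤ) ^ r - 1) * A r d + h r = h r * ((q : ℤ) ^ r) ^ (d + 1 - g)) :
    ((trunc (2 * g + 1) (lser R q A r) : Polynomial R) : PowerSeries R) = lser R q A r := by
  ext d
  rw [Polynomial.coeff_coe, coeff_trunc]
  split_ifs with hd
  · rfl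
  · exact (coeff_lser_eq_zero q A r h hq hr hA0 hRR (by omega)).symm

/-- The class number formula. -/
theorem exists_roots_of_counts (K : Type*) [Field K] [CharZero K] [IsAlgClosed K] {q g : ℕ}
    (hq : 2 ≤ q) (h : ℕ → ℕ) (A : ℕ → ℕ → ℕ) (N : ℕ → ℕ)
    (hA0 : ∀ r, r ≠ 0 → A r 0 = 1)
    (hrec : ∀ r, r ≠ 0 → ∀ d, d * A r d = ∑ s ∈ Finset.Icc 1 d, N (r * s) * A r (d - s))
    (hRR : ∀ r, r ≠ 0 → ∀ d, 2 * g ≤ d + 1 →
      ((q : ℤ) ^ r - 1) * A r d + h r = h r * ((q : ℤ) ^ r) ^ (d + 1 - g)) :
    ∃ s : Multiset K, Multiset.card s = 2 * g ∧ (∀ α ∈ s, IsIntegral ℤ α) ∧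
      ∀ r, r ≠ 0 → (h r : K) = (s.map fun α => 1 - α ^ r).prod := by
  set LZ : Polynomial ℤ := trunc (2 * g + 1) (lser ℤ q A 1) with hLZ
  set RZ : Polynomial ℤ := Polynomial.reflect (2 * g) LZ with hRZ
  have hLdeg : LZ.natDegree ≤ 2 * g := by
    rw [Polynomial.natDegree_le_iff_coeff_eq_zero]
    intro i hi
    rw [hLZ, coeff_trunc, if_neg (by omega)]
  have hL0 : LZ.coeff 0 = 1 := by
    rw [hLZ, coeff_trunc, if_pos (by omega), coeff_lser_zero, hA0 1 one_ne_zero, Nat.cast_one]
  have hRdeg : RZ.natDegree ≤ 2 * g := by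
    rw [Polynomial.natDegree_le_iff_coeff_eq_zero]
    intro i hi
    rw [hRZ, Polynomial.coeff_reflect, Polynomial.revAt_eq_self_of_lt hi]
    exact Polynomial.coeff_eq_zero_of_natDegree_lt (by omega)
  have hR1 : RZ.coeff (2 * g) = 1 := by
    rw [hRZ, Polynomial.coeff_reflect, Polynomial.revAt_le le_rfl, Nat.sub_self, hL0]
  have hRm : RZ.Monic := Polynomial.monic_of_natDegree_le_of_coeff_eq_one _ hRdeg hR1
  have hRd : RZ.natDegree = 2 * g :=
    le_antisymm hRdeg (Polynomial.le_natDegree_of_ne_zero (by rw [hR1]; exact one_ne_zero))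
  set RK : Polynomial K := RZ.map (algebraMap ℤ K) with hRK
  have hsplit : RK = (RK.roots.map fun a => Polynomial.X - Polynomial.C a).prod :=
    (IsAlgClosed.splits RK).eq_prod_roots_of_monic (hRm.map _)
  have hcard : Multiset.card RK.roots = 2 * g := by
    rw [(Polynomial.splits_iff_card_roots).1 (IsAlgClosed.splits RK), hRK,
      hRm.natDegree_map, hRd]
  refine ⟨RK.roots, hcard, fun α hα => ⟨RZ, hRm, ?_⟩, ?_⟩
  · have := (Polynomial.mem_roots'.1 hα).2
    rwa [hRK, Polynomial.IsRoot, Polynomial.eval_map] at this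
  -- the numerator for `r = 1`
  have hpoly : LZ.map (algebraMap ℤ K) =
      (RK.roots.map fun a => 1 - Polynomial.C a * Polynomial.X).prod := by
    refine Polynomial.eq_of_infinite_eval_eq _ _ ?_
    refine ((Set.finite_singleton (0 : K)).infinite_compl).mono fun x hx => ?_
    have hx0 : x ≠ 0 := hx
    show Polynomial.eval x _ = Polynomial.eval x _
    let := invertibleOfNonzero hx0
    have h1 := Polynomial.eval₂_reflect_mul_pow (algebraMap ℤ K) x (2 * g) LZ hLdeg
    rw [← hRZ, ← Polynomial.eval_map, ← Polynomial.eval_map, ← hRK] at h1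
    rw [← h1, invOf_eq_inv]
    conv_lhs => rw [hsplit, ← hcard]
    rw [Polynomial.eval_multiset_prod, Polynomial.eval_multiset_prod, Multiset.map_map,
      Multiset.map_map, ← Multiset.prod_replicate, ← Multiset.map_const', ← Multiset.prod_map_mul]
    congr 1
    refine Multiset.map_congr rfl fun a _ => ?_
    simp only [Function.comp_apply, Polynomial.eval_sub, Polynomial.eval_X, Polynomial.eval_C,
      Polynomial.eval_one, Polynomial.eval_mul]
    rw [sub_mul, inv_mul_cancel₀ hx0]
  have hL1 : lser K q A 1 = (RK.roots.map fun a => 1 - C a * X).prod := by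
    rw [← map_lser ℤ q A 1 (algebraMap ℤ K),
      ← trunc_lser q A 1 h hq one_ne_zero (hA0 1 one_ne_zero) (hRR 1 one_ne_zero), ← hLZ,
      ← Polynomial.polynomial_map_coe, hpoly, ← Polynomial.coeToPowerSeries.ringHom_apply,
      map_multiset_prod, Multiset.map_map]
    congr 1
    refine Multiset.map_congr rfl fun a _ => ?_
    simp [Polynomial.coeToPowerSeries.ringHom_apply]
  set α := RK.roots with hα
  have hne : lser K q A 1 ≠ 0 := fun h0 => by
    have := congrArg (coeff 0) h0
    rw [coeff_lser_zero, hA0 1 one_ne_zero, Nat.cast_one, map_zero] at this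
    exact one_ne_zero this
  have hN : ∀ n, n ≠ 0 → (N n : K) - 1 - (q : K) ^ n = -(α.map fun a => a ^ n).sum := by
    intro n hn
    have h1 := theta_lser K q A N 1 (hrec 1 one_ne_zero)
    rw [show theta (lser K q A 1) = -(α.map pser).sum * lser K q A 1 by
      rw [hL1]; exact theta_prod α] at h1
    have h2 := congrArg (coeff n) (mul_right_cancel₀ hne h1)
    rw [map_neg, coeff_sum_pser α hn] at h2
    simp only [map_sub, nser, pser, coeff_mk, if_neg hn, one_mul, pow_one, one_pow] at h2
    exact h2.symm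
  intro r hr
  set β := α.map fun a => a ^ r with hβ
  have hH : nser K N r - pser 1 - pser ((q : K) ^ r) = -(β.map pser).sum := by
    ext n
    rcases eq_or_ne n 0 with rfl | hn
    · rw [map_neg, coeff_zero_sum_pser]
      simp [nser, pser]
    · rw [map_neg, coeff_sum_pser β hn]
      simp only [map_sub, nser, pser, coeff_mk, if_neg hn, one_pow, ← pow_mul, hβ,
        Multiset.map_map, Function.comp_def]
      exact hN (r * n) (mul_ne_zero hr hn)
  have hLr : lser K q A r = (β.map fun a => 1 - C a * X).prod := by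
    refine eq_of_theta_eq (H := -(β.map pser).sum) ?_ (theta_prod β) ?_ ?_
    · rw [← hH]; exact theta_lser K q A N r (hrec r hr)
    · rw [map_neg, coeff_zero_sum_pser, neg_zero]
    · rw [coeff_lser_zero, hA0 r hr, coeff_zero_prod, Nat.cast_one]
  set P : Polynomial K := (β.map fun a => 1 - Polynomial.C a * Polynomial.X).prod with hP
  have hPco : (P : PowerSeries K) = lser K q A r := by
    rw [hLr, hP, ← Polynomial.coeToPowerSeries.ringHom_apply, map_multiset_prod, Multiset.map_map]
    congr 1
    refine Multiset.map_congr rfl fun a _ => ?_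
    simp [Polynomial.coeToPowerSeries.ringHom_apply]
  rw [← sum_coeff_lser_eq (R := K) q A r h hq hr (hA0 r hr) (hRR r hr)]
  have hPd : P.natDegree ≤ 2 * g := by
    rw [Polynomial.natDegree_le_iff_coeff_eq_zero]
    intro i hi
    rw [← Polynomial.coeff_coe, hPco]
    exact coeff_lser_eq_zero q A r h hq hr (hA0 r hr) (hRR r hr) (by omega)
  rw [Finset.sum_congr rfl (g := fun d => P.coeff d)
    fun d _ => by rw [← hPco, Polynomial.coeff_coe]]
  have := Polynomial.eval_eq_sum_range' (show P.natDegree < 2 * g + 1 by omega) (1 : K)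
  simp only [one_pow, mul_one] at this
  rw [← this, hP, Polynomial.eval_multiset_prod, Multiset.map_map, hβ, Multiset.map_map]
  congr 1
  exact Multiset.map_congr rfl fun a _ => by simp

end Counts

end FLTAgent.RedSurj
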