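import Fermat.Agent.RedSurj.Descent
import Fermat.Agent.RedSurj.Series
import Fermat.Agent.RedSurj.Padic
import Fermat.Agent.RedSurj.Growth

/-!
# Torsion of the class group in the presence of a Frobenius

`exists_card_torsion_le`: for a function field of genus `g` over an algebraically closed field with
a semilinear automorphism of Frobenius type, `Pic⁰[p ^ m]` is finite of order at most
`C p ^ (2 g m)`.  The numbers `h r` of classes fixed by the iterates are products of `1 - α ^ r`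
over `2 g` algebraic integers (`Series`), whose `p`-adic valuations grow slowly (`Padic`), and
this bounds the torsion (`Growth`).
-/

set_option autoImplicit false

noncomputable section

open AlgebraicCurve

namespace FLTAgent.RedSurj

variable {k F : Type*} [Field k] [Field F] [Algebra k F] [IsAlgClosed k] [FF.IsFF k F]

theorem toPerm_pow_apply (ψ : SemilinearAut k F) (s : ℕ) :
    (MulAction.toPerm (ψ ^ s) : Equiv.Perm (Place k F)) = MulAction.toPerm ψ ^ s := by
  induction s with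
  | zero => ext v; simp
  | succ s ih =>
    ext v
    rw [pow_succ' (MulAction.toPerm ψ : Equiv.Perm (Place k F)), Equiv.Perm.mul_apply, ← ih,
      pow_succ']
    simp [MulAction.toPerm_apply, mul_smul]

/-- `# Pic⁰[p ^ m] ≤ C p ^ (2 g m)`. -/
theorem exists_card_torsion_le {ψ : SemilinearAut k F} {Q : ℕ} (hψ : IsFrob ψ Q) (p : ℕ)
    [Fact p.Prime] :
    ∃ C : ℕ, ∀ m : ℕ, Finite (Pic0.torsion k F (p ^ m)) ∧
      Nat.card (Pic0.torsion k F (p ^ m)) ≤ C * p ^ (2 * genusFF k F * m) := by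
  classical
  set g := genusFF k F with hg
  set σ : Equiv.Perm (Place k F) := MulAction.toPerm ψ with hσdef
  let h : ℕ → ℕ := fun r => (fixPic (ψ ^ r)).ncard
  let A : ℕ → ℕ → ℕ := fun r d => effCard (σ ^ r) d
  let Nc : ℕ → ℕ := fun s => fixCard σ s
  have hσpow : ∀ r : ℕ, (MulAction.toPerm (ψ ^ r) : Equiv.Perm (Place k F)) = σ ^ r :=
    fun r => toPerm_pow_apply ψ r
  have hσ : ∀ r : ℕ, r ≠ 0 → ∀ v, ∃ s, 0 < s ∧ ((σ ^ r) ^ s) v = v := by
    intro r hr v
    obtain ⟨s, hs, hv⟩ := exists_period_place (hψ.npow hr) v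
    refine ⟨s, hs, ?_⟩
    rw [← hσpow r, ← toPerm_pow_apply]
    exact hv
  have hfin : ∀ r : ℕ, r ≠ 0 → ∀ s, 0 < s → (fixSet (σ ^ r) s).Finite := by
    intro r hr s hs
    refine ((hψ.npow hr).finFix s hs).subset fun v hv => ?_
    have h1 : ((σ ^ r) ^ s) v = v := hv
    rw [← hσpow r, ← toPerm_pow_apply] at h1
    exact h1
  have hrec : ∀ r, r ≠ 0 → ∀ d, d * A r d = ∑ s ∈ Finset.Icc 1 d, Nc (r * s) * A r (d - s) := by
    intro r hr d
    have h1 := mul_effCard (hσ r hr) (hfin r hr) d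
    have h2 : ∀ s, fixCard (σ ^ r) s = Nc (r * s) := fun s => by
      show (fixSet _ _).ncard = (fixSet _ _).ncard
      rw [show fixSet (σ ^ r) s = fixSet σ (r * s) by simp only [fixSet, pow_mul]]
    simp only [h2] at h1
    exact h1
  have hRR : ∀ r, r ≠ 0 → ∀ d, 2 * g ≤ d + 1 →
      ((Q : ℤ) ^ r - 1) * A r d + h r = h r * ((Q : ℤ) ^ r) ^ (d + 1 - g) := by
    intro r hr d hd
    have h1 := (effCard_eq (hψ.npow hr)).2 d hd
    rw [hσpow r] at h1
    push_cast at h1
    exact h1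
  have hpos : ∀ r, r ≠ 0 → h r ≠ 0 := fun r hr =>
    (Set.ncard_pos (effCard_eq (hψ.npow hr)).1).2 ⟨0, show (ψ ^ r) • (0 : Pic0 k F) = 0 from
      (by exact map_zero (DistribSMul.toAddMonoidHom (Pic0 k F) (ψ ^ r)))⟩ |>.ne'
  obtain ⟨s, hcard, hint, hprod⟩ := exists_roots_of_counts (PadicAlgCl p) (q := Q) (g := g)
    hψ.one_lt h A Nc (fun r hr => effCard_zero) hrec hRR
  have hnorm : ∀ α ∈ s, ‖α‖ ≤ 1 := fun α hα => by
    obtain ⟨P, hPm, hP⟩ := hint α hα
    by_contra hlt
    rw [not_le] at hlt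
    rw [← Polynomial.aeval_def, Polynomial.aeval_eq_sum_range, Finset.sum_range_succ,
      hPm.coeff_natDegree, one_smul, add_eq_zero_iff_eq_neg] at hP
    have h1 : ‖∑ i ∈ Finset.range P.natDegree, P.coeff i • α ^ i‖ < ‖α‖ ^ P.natDegree := by
      rcases Nat.eq_zero_or_pos P.natDegree with hd | hd
      · rw [hd]; simp
      refine lt_of_le_of_lt (IsUltrametricDist.norm_sum_le_of_forall_le_of_nonneg
        (C := ‖α‖ ^ (P.natDegree - 1)) (by positivity) fun i hi => ?_)
        (pow_lt_pow_right₀ hlt (by omega))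
      rw [Finset.mem_range] at hi
      rw [zsmul_eq_mul, norm_mul, norm_pow]
      refine le_trans (mul_le_of_le_one_left (by positivity) ?_)
        (pow_le_pow_right₀ hlt.le (by omega))
      rw [← map_intCast (algebraMap ℚ_[p] (PadicAlgCl p)), PadicAlgCl.norm_extends]
      exact Padic.norm_int_le_one _
    rw [hP, norm_neg, norm_pow] at h1
    exact lt_irrefl _ h1
  obtain ⟨C, hC⟩ := exists_padicValNat_le h hpos s hnorm hprod
  let φ : AddMonoid.End (Pic0 k F) := DistribSMul.toAddMonoidHom (Pic0 k F) ψ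
  have hφ : ∀ (r : ℕ) (x : Pic0 k F), (φ ^ r : AddMonoid.End _) x = (ψ ^ r) • x := by
    intro r
    induction r with
    | zero => intro x; simp
    | succ r ih =>
      intro x
      rw [pow_succ', pow_succ' ψ, mul_smul, ← ih]
      rfl
  have hset : ∀ r, (fixSub φ r : Set (Pic0 k F)) = fixPic (ψ ^ r) := fun r => by
    ext x
    show (φ ^ r : AddMonoid.End _) x = x ↔ (ψ ^ r) • x = x
    rw [hφ]
  have hper : ∀ x : Pic0 k F, ∃ r : ℕ, r ≠ 0 ∧ x ∈ fixSub φ r := by
    intro x
    obtain ⟨D, rfl⟩ := Pic0.mk_surjective x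
    obtain ⟨r, hr, hD⟩ := exists_period_divisor hψ (D : Divisor k F)
    refine ⟨r, hr.ne', ?_⟩
    rw [mem_fixSub, hφ, SemilinearAut.pic0_smul_mk]
    exact congrArg _ (Subtype.ext hD)
  have hfinFix : ∀ r : ℕ, r ≠ 0 → Finite (fixSub φ r) := fun r hr =>
    ((hset r).symm ▸ (effCard_eq (hψ.npow hr)).1 :
      (fixSub φ r : Set (Pic0 k F)).Finite).to_subtype
  have hval : ∀ r : ℕ, r ≠ 0 →
      padicValNat p (Nat.card (fixSub φ r)) ≤ C + 2 * g * padicValNat p r := by
    intro r hr
    have h1 := hC r hr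
    rw [hcard] at h1
    have e : Nat.card (fixSub φ r) = h r := by
      show Nat.card ((fixSub φ r : Set (Pic0 k F)) : Type _) = (fixPic (ψ ^ r)).ncard
      rw [hset r, Nat.card_coe_set_eq]
    rwa [e]
  obtain ⟨C', hC'⟩ := exists_card_torSub_le (p := p) φ hper hfinFix C (2 * g) hval
  refine ⟨C', fun m => ?_⟩
  have e : Pic0.torsion k F (p ^ m) = torSub (p ^ m) := by
    ext x
    rw [Pic0.mem_torsion, natCast_zsmul, mem_torSub]
  rw [e]
  exact hC' m

end FLTAgent.RedSurj
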