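import Mathlib

/-!
# Counting fixed effective divisors

For a permutation `σ` with periodic orbits and finitely many fixed points of each iterate,
`effCard σ d` counts the fixed effective divisors of degree `d` and `fixCard σ s` the fixed points
of `σ ^ s`.  Main result `mul_effCard`: `d A_d = ∑_{1 ≤ s ≤ d} N_s A_{d - s}`, the logarithmic
derivative form of the Euler product, proved by a bijection.
-/

set_option autoImplicit false

noncomputable section

namespace FLTAgent.RedSurj

open scoped Classical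

variable {α : Type*} (σ : Equiv.Perm α)

/-- Fixed effective divisors of degree `d`. -/
def effSet (d : ℕ) : Set (α →₀ ℕ) := {E | (∀ a, E (σ a) = E a) ∧ E.sum (fun _ n => n) = d}

/-- Fixed points of the `s`-th iterate. -/
def fixSet (s : ℕ) : Set α := {a | (σ ^ s) a = a}

/-- The number of fixed effective divisors of degree `d`. -/
def effCard (d : ℕ) : ℕ := (effSet σ d).ncard

/-- The number of fixed places of the `s`-th iterate. -/
def fixCard (s : ℕ) : ℕ := (fixSet σ s).ncard

theorem apply_iterate {E : α →₀ ℕ} (hE : ∀ a, E (σ a) = E a) (a : α) :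
    ∀ i : ℕ, E ((σ ^ i) a) = E a := by
  intro i
  induction i with
  | zero => simp
  | succ i ih => rw [pow_succ', Equiv.Perm.mul_apply, hE, ih]

theorem sum_add_nat (E E' : α →₀ ℕ) :
    (E + E').sum (fun _ n => n) = E.sum (fun _ n => n) + E'.sum (fun _ n => n) :=
  Finsupp.sum_add_index' (fun _ => rfl) (fun _ _ _ => rfl)

variable {σ} (hσ : ∀ a : α, ∃ s, 0 < s ∧ (σ ^ s) a = a)

/-- The period of a point. -/
def period (a : α) : ℕ := Nat.find (hσ a)

theorem period_pos (a : α) : 0 < period hσ a := (Nat.find_spec (hσ a)).1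

theorem pow_period (a : α) : (σ ^ period hσ a) a = a := (Nat.find_spec (hσ a)).2

theorem pow_mul_period (a : α) (j : ℕ) : (σ ^ (j * period hσ a)) a = a := by
  induction j with
  | zero => simp
  | succ j ih => rw [Nat.succ_mul, pow_add, Equiv.Perm.mul_apply, pow_period, ih]

theorem period_dvd {a : α} {s : ℕ} (h : (σ ^ s) a = a) : period hσ a ∣ s := by
  refine Nat.dvd_of_mod_eq_zero ?_
  by_contra h0
  have h1 : (σ ^ (s % period hσ a)) a = a := by
    have := h
    rwa [← Nat.mod_add_div s (period hσ a), pow_add, Equiv.Perm.mul_apply, mul_comm,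
      pow_mul_period] at this
  exact Nat.find_min (hσ a) (Nat.mod_lt _ (period_pos hσ a)) ⟨Nat.pos_of_ne_zero h0, h1⟩

theorem injOn_orbit (a : α) :
    Set.InjOn (fun i : ℕ => (σ ^ i) a) (Finset.range (period hσ a) : Set ℕ) := by
  intro i hi j hj hij
  wlog hle : i ≤ j generalizing i j
  · exact (this hj hi hij.symm (le_of_not_ge hle)).symm
  simp only [Finset.coe_range, Set.mem_Iio] at hi hj
  obtain ⟨t, rfl⟩ := Nat.exists_eq_add_of_le hle
  have h1 : (σ ^ t) a = a := by
    apply (σ ^ i).injective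
    rw [← Equiv.Perm.mul_apply, ← pow_add]
    exact hij.symm
  rcases Nat.eq_zero_of_dvd_of_lt (period_dvd hσ h1) (by omega) with rfl
  rfl

/-- The orbit of a point as a divisor. -/
def orbitDiv (a : α) : α →₀ ℕ :=
  ∑ i ∈ Finset.range (period hσ a), Finsupp.single ((σ ^ i) a) 1

theorem orbitDiv_apply_orbit (a : α) (i : ℕ) : orbitDiv hσ a ((σ ^ i) a) = 1 := by
  classical
  have hi : (σ ^ i) a = (σ ^ (i % period hσ a)) a := by
    conv_lhs => rw [← Nat.mod_add_div i (period hσ a), pow_add, Equiv.Perm.mul_apply, mul_comm,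
      pow_mul_period]
  rw [hi, orbitDiv, Finsupp.finsetSum_apply, Finset.sum_eq_single (i % period hσ a)]
  · simp
  · intro j hj hne
    rw [Finsupp.single_apply, if_neg]
    exact fun h => hne (injOn_orbit hσ a hj
      (by simp [Nat.mod_lt _ (period_pos hσ a)]) h)
  · simp [Nat.mod_lt _ (period_pos hσ a)]

theorem orbitDiv_apply_self (a : α) : orbitDiv hσ a a = 1 := by
  simpa using orbitDiv_apply_orbit hσ a 0

theorem mem_orbit_of_ne_zero {a b : α} (h : orbitDiv hσ a b ≠ 0) : ∃ i, b = (σ ^ i) a := by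
  classical
  by_contra hb
  push Not at hb
  apply h
  rw [orbitDiv, Finsupp.finsetSum_apply]
  exact Finset.sum_eq_zero fun i _ => by rw [Finsupp.single_apply, if_neg fun h' => hb i h'.symm]

theorem orbitDiv_invariant (a b : α) : orbitDiv hσ a (σ b) = orbitDiv hσ a b := by
  by_cases hb : ∃ i, b = (σ ^ i) a
  · obtain ⟨i, rfl⟩ := hb
    rw [← Equiv.Perm.mul_apply, ← pow_succ', orbitDiv_apply_orbit, orbitDiv_apply_orbit]
  · have h1 : orbitDiv hσ a b = 0 := by_contra fun h => hb (mem_orbit_of_ne_zero hσ h)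
    have h2 : orbitDiv hσ a (σ b) = 0 := by
      by_contra h
      obtain ⟨i, hi⟩ := mem_orbit_of_ne_zero hσ h
      refine hb ⟨i + (period hσ a - 1), σ.injective ?_⟩
      rw [hi, ← Equiv.Perm.mul_apply, ← pow_succ',
        show i + (period hσ a - 1) + 1 = i + period hσ a by have := period_pos hσ a; omega,
        pow_add, Equiv.Perm.mul_apply, pow_period]
    rw [h1, h2]

theorem sum_orbitDiv (a : α) : (orbitDiv hσ a).sum (fun _ n => n) = period hσ a := by
  have h : ∀ (s : Finset ℕ),
      (∑ i ∈ s, Finsupp.single ((σ ^ i) a) 1).sum (fun _ n => n) = s.card := by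
    intro s
    induction s using Finset.induction_on with
    | empty => simp
    | insert i s hi ih =>
      rw [Finset.sum_insert hi, sum_add_nat, ih, Finsupp.sum_single_index rfl,
        Finset.card_insert_of_notMem hi, add_comm]
  simpa [orbitDiv] using h (Finset.range (period hσ a))

theorem smul_orbitDiv_le {E : α →₀ ℕ} (hE : ∀ a, E (σ a) = E a) {a : α} {j : ℕ} (hj : j ≤ E a) :
    j • orbitDiv hσ a ≤ E := by
  intro b
  rw [Finsupp.smul_apply, smul_eq_mul]
  by_cases hb : ∃ i, b = (σ ^ i) a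
  · obtain ⟨i, rfl⟩ := hb
    rw [orbitDiv_apply_orbit, mul_one, apply_iterate σ hE]
    exact hj
  · rw [show orbitDiv hσ a b = 0 from by_contra fun h => hb (mem_orbit_of_ne_zero hσ h), mul_zero]
    exact Nat.zero_le _

theorem sum_smul_orbitDiv (a : α) (j : ℕ) :
    (j • orbitDiv hσ a).sum (fun _ n => n) = j * period hσ a := by
  induction j with
  | zero => simp
  | succ j ih => rw [succ_nsmul, sum_add_nat, ih, sum_orbitDiv, Nat.succ_mul]

include hσ in
/-- Finiteness of the fixed effective divisors of a given degree. -/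
theorem finite_effSet (hfin : ∀ s, 0 < s → (fixSet σ s).Finite) (d : ℕ) :
    (effSet σ d).Finite := by
  classical
  have hS : (⋃ s ∈ Finset.Icc 1 d, fixSet σ s).Finite :=
    (Finset.Icc 1 d).finite_toSet.biUnion fun s hs => hfin s (Finset.mem_Icc.1 hs).1
  refine (Finset.finite_toSet (hS.toFinset.finsupp fun _ => Finset.range (d + 1))).subset ?_
  rintro E ⟨hE, hd⟩
  rw [Finset.mem_coe, Finset.mem_finsupp_iff]
  refine ⟨fun a ha => ?_, fun a _ => ?_⟩
  · rw [Set.Finite.mem_toFinset]
    simp only [Set.mem_iUnion]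
    have hne : E a ≠ 0 := Finsupp.mem_support_iff.1 ha
    have hle := smul_orbitDiv_le hσ hE (Nat.one_le_iff_ne_zero.2 hne)
    have hdeg : period hσ a ≤ d := by
      rw [← hd, ← one_mul (period hσ a), ← sum_smul_orbitDiv hσ a 1,
        ← add_tsub_cancel_of_le hle, sum_add_nat]
      exact Nat.le_add_right _ _
    exact ⟨period hσ a, Finset.mem_Icc.2 ⟨period_pos hσ a, hdeg⟩, pow_period hσ a⟩
  · rw [Finset.mem_range]
    refine Nat.lt_succ_of_le ?_
    rw [← hd]
    by_cases ha : a ∈ E.support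
    · exact Finset.single_le_sum (f := fun b => E b) (fun b _ => Nat.zero_le _) ha
    · rw [Finsupp.notMem_support_iff.1 ha]; exact Nat.zero_le _

include hσ in
/-- `d A_d = ∑ N_s A_{d - s}`. -/
theorem mul_effCard (hfin : ∀ s, 0 < s → (fixSet σ s).Finite) (d : ℕ) :
    d * effCard σ d = ∑ s ∈ Finset.Icc 1 d, fixCard σ s * effCard σ (d - s) := by
  classical
  let EF : ℕ → Finset (α →₀ ℕ) := fun n => (finite_effSet hσ hfin n).toFinset
  have hEF : ∀ n E, E ∈ EF n ↔ (∀ a, E (σ a) = E a) ∧ E.sum (fun _ m => m) = n :=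
    fun n E => Set.Finite.mem_toFinset _
  let NF : ℕ → Finset α := fun s =>
    if h : 0 < s then (hfin s h).toFinset else ∅
  have hA : ∀ n, effCard σ n = (EF n).card := fun n =>
    Set.ncard_eq_toFinset_card _ (finite_effSet hσ hfin n)
  let T1 := (EF d).sigma fun E => E.support.sigma fun a => Finset.Icc 1 (E a)
  let T2 := (Finset.Icc 1 d).sigma fun s => NF s ×ˢ EF (d - s)
  have h1 : T1.card = d * effCard σ d := by
    rw [Finset.card_sigma, hA, mul_comm, ← smul_eq_mul, ← Finset.sum_const]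
    refine Finset.sum_congr rfl fun E hE => ?_
    rw [Finset.card_sigma]
    simp only [Nat.card_Icc, add_tsub_cancel_right]
    exact ((hEF d E).1 hE).2
  have h2 : T2.card = ∑ s ∈ Finset.Icc 1 d, fixCard σ s * effCard σ (d - s) := by
    rw [Finset.card_sigma]
    refine Finset.sum_congr rfl fun s hs => ?_
    have h0 : 0 < s := (Finset.mem_Icc.1 hs).1
    rw [Finset.card_product, hA, fixCard, Set.ncard_eq_toFinset_card _ (hfin s h0)]
    simp [NF, h0]
  rw [← h1, ← h2]
  refine Finset.card_nbij'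
    (fun x => ⟨x.2.2 * period hσ x.2.1, (x.2.1, x.1 - x.2.2 • orbitDiv hσ x.2.1)⟩)
    (fun y => ⟨y.2.2 + (y.1 / period hσ y.2.1) • orbitDiv hσ y.2.1,
      ⟨y.2.1, y.1 / period hσ y.2.1⟩⟩) ?_ ?_ ?_ ?_
  · rintro ⟨E, a, j⟩ hx
    simp only [T1, Finset.mem_coe, Finset.mem_sigma, Finset.mem_Icc, hEF] at hx
    obtain ⟨⟨hE, hd⟩, -, hj1, hj⟩ := hx
    have hle := smul_orbitDiv_le hσ hE hj
    have hsum : j * period hσ a + (E - j • orbitDiv hσ a).sum (fun _ m => m) = d := by
      rw [← sum_smul_orbitDiv, ← sum_add_nat, add_tsub_cancel_of_le hle, hd]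
    have hpos : 0 < j * period hσ a := Nat.mul_pos hj1 (period_pos hσ a)
    simp only [T2, Finset.mem_coe, Finset.mem_sigma, Finset.mem_Icc, Finset.mem_product, hEF]
    refine ⟨⟨hpos, by omega⟩, ?_, fun b => ?_, by omega⟩
    · simp only [NF, hpos, dif_pos, Set.Finite.mem_toFinset]
      exact pow_mul_period hσ a j
    · simp only [Finsupp.tsub_apply, Finsupp.smul_apply, hE b, orbitDiv_invariant hσ a b]
  · rintro ⟨s, a, E⟩ hy
    simp only [T2, Finset.mem_coe, Finset.mem_sigma, Finset.mem_Icc, Finset.mem_product, hEF] at hy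
    obtain ⟨⟨hs1, hsd⟩, ha, hE, hd⟩ := hy
    simp only [NF, show 0 < s by omega, dif_pos, Set.Finite.mem_toFinset] at ha
    have hdvd := period_dvd hσ (show (σ ^ s) a = a from ha)
    have hj : 0 < s / period hσ a :=
      Nat.div_pos (Nat.le_of_dvd (by omega) hdvd) (period_pos hσ a)
    simp only [T1, Finset.mem_coe, Finset.mem_sigma, Finset.mem_Icc, hEF, Finsupp.mem_support_iff,
      Finsupp.add_apply, Finsupp.smul_apply, smul_eq_mul, orbitDiv_apply_self, mul_one]
    refine ⟨⟨fun b => ?_, ?_⟩, by omega, by omega, by omega⟩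
    · simp only [hE b, orbitDiv_invariant hσ a b]
    · rw [sum_add_nat, hd, sum_smul_orbitDiv, Nat.div_mul_cancel hdvd]
      omega
  · rintro ⟨E, a, j⟩ hx
    simp only [T1, Finset.mem_coe, Finset.mem_sigma, Finset.mem_Icc, hEF] at hx
    obtain ⟨⟨hE, -⟩, -, -, hj⟩ := hx
    simp only [Nat.mul_div_left j (period_pos hσ a)]
    rw [tsub_add_cancel_of_le (smul_orbitDiv_le hσ hE hj)]
  · rintro ⟨s, a, E⟩ hy
    simp only [T2, Finset.mem_coe, Finset.mem_sigma, Finset.mem_Icc, Finset.mem_product, hEF] at hy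
    obtain ⟨⟨hs1, -⟩, ha, -⟩ := hy
    simp only [NF, show 0 < s by omega, dif_pos, Set.Finite.mem_toFinset] at ha
    simp only [Nat.div_mul_cancel (period_dvd hσ (show (σ ^ s) a = a from ha)),
      add_tsub_cancel_right]

theorem effCard_zero : effCard σ 0 = 1 := by
  rw [effCard, Set.ncard_eq_one]
  refine ⟨0, Set.ext fun E => ⟨fun h => ?_, fun h => ?_⟩⟩
  · refine Set.mem_singleton_iff.2 (Finsupp.ext fun a => ?_)
    by_contra ha
    have h1 := Finset.single_le_sum (f := fun b => E b) (fun b _ => Nat.zero_le _)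
      (Finsupp.mem_support_iff.2 ha)
    have h2 : ∑ b ∈ E.support, E b = 0 := h.2
    exact ha (by simp only [Finsupp.coe_zero, Pi.zero_apply]; omega)
  · rw [Set.mem_singleton_iff.1 h]
    exact ⟨fun _ => rfl, by simp⟩

end FLTAgent.RedSurj
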