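import Fermat.Prelude.Def_AlgebraicCurve_BaseChangeGalois
import Fermat.Agent.FF.RiemannRoch
import Fermat.Agent.RedSurj.Counting

/-!
# Frobenius descent on a function field

`IsFrob ψ Q`: a semilinear automorphism acting as `x ↦ x ^ Q` on constants, with periodic orbits,
a fixed place and finitely many fixed places of each iterate.  Classes fixed by `ψ` contain fixed
divisors (`exists_fixed_divisor`), `L(D)` has a basis of fixed elements (`span_fixRR`), and hence
the fixed effective divisors in a class are counted by Riemann–Roch (`card_effClass`).  The result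
`effCard_eq`: the fixed classes `fixPic ψ` are finite and, for `2 g ≤ d + 1`,
`(Q - 1) A_d + h = h Q ^ (d + 1 - g)`.
-/

set_option autoImplicit false

noncomputable section

open AlgebraicCurve

namespace FLTAgent.RedSurj

variable {k F : Type*} [Field k] [Field F] [Algebra k F]

/-- A semilinear automorphism of Frobenius type: `x ↦ x ^ Q` on constants, all orbits periodic. -/
structure IsFrob (ψ : SemilinearAut k F) (Q : ℕ) : Prop where
  one_lt : 1 < Q
  cast_eq_zero : (Q : k) = 0
  base : ∀ x : k, SemilinearAut.baseAut ψ x = x ^ Q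
  periodic : ∀ f : F, ∃ s, 0 < s ∧ (ψ ^ s) • f = f
  fixedPlace : ∃ P : Place k F, ψ • P = P
  finFix : ∀ s, 0 < s → {P : Place k F | (ψ ^ s) • P = P}.Finite

variable {ψ : SemilinearAut k F} {Q : ℕ}

theorem pow_smul_of_dvd {β : Type*} [MulAction (SemilinearAut k F) β] {x : β} {s t : ℕ}
    (h : (ψ ^ s) • x = x) (hst : s ∣ t) : (ψ ^ t) • x = x := by
  obtain ⟨a, rfl⟩ := hst
  induction a with
  | zero => simp
  | succ a ih => rw [Nat.mul_succ, pow_add, mul_smul, h, ih]

theorem base_pow (hψ : IsFrob ψ Q) (s : ℕ) (x : k) :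
    SemilinearAut.baseAut (ψ ^ s) x = x ^ Q ^ s := by
  induction s generalizing x with
  | zero => simp
  | succ s ih =>
    rw [pow_succ', SemilinearAut.baseAut_mul]
    show SemilinearAut.baseAut ψ (SemilinearAut.baseAut (ψ ^ s) x) = _
    rw [ih, hψ.base, ← pow_mul, pow_succ]

theorem pow_smul_algebraMap (hψ : IsFrob ψ Q) (s : ℕ) (x : k) :
    (ψ ^ s) • algebraMap k F x = algebraMap k F (x ^ Q ^ s) := by
  rw [SemilinearAut.smul_algebraMap, base_pow hψ]

theorem frob_smul_algebraMap (hψ : IsFrob ψ Q) (x : k) :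
    ψ • algebraMap k F x = algebraMap k F (x ^ Q) := by
  rw [SemilinearAut.smul_algebraMap, hψ.base]

theorem IsFrob.npow (hψ : IsFrob ψ Q) {r : ℕ} (hr : r ≠ 0) : IsFrob (ψ ^ r) (Q ^ r) where
  one_lt := Nat.one_lt_pow hr hψ.one_lt
  cast_eq_zero := by rw [Nat.cast_pow, hψ.cast_eq_zero, zero_pow hr]
  base := base_pow hψ r
  periodic f := by
    obtain ⟨s, hs, h⟩ := hψ.periodic f
    exact ⟨s, hs, by rw [← pow_mul]; exact pow_smul_of_dvd h (dvd_mul_left s r)⟩
  fixedPlace := by
    obtain ⟨P, hP⟩ := hψ.fixedPlace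
    exact ⟨P, pow_smul_of_dvd (s := 1) (by rw [pow_one, hP]) (one_dvd r)⟩
  finFix s hs := by
    simp only [← pow_mul]
    exact hψ.finFix _ (Nat.mul_pos (Nat.pos_of_ne_zero hr) hs)

/-- The fixed constants. -/
def fixConst (k : Type*) [Field k] (Q : ℕ) : Set k := {x | x ^ Q = x}

section Constants

variable [IsAlgClosed k]

theorem finite_fixConst {Q : ℕ} (hQ : 1 < Q) : (fixConst k Q).Finite := by
  classical
  refine ((Polynomial.X ^ Q - Polynomial.X : Polynomial k).roots.toFinset.finite_toSet).subset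
    fun x (hx : x ^ Q = x) => ?_
  rw [Finset.mem_coe, Multiset.mem_toFinset,
    Polynomial.mem_roots (FiniteField.X_pow_card_sub_X_ne_zero k hQ)]
  simp [hx]

theorem ncard_fixConst {Q : ℕ} (hQ : 1 < Q) (h0 : (Q : k) = 0) : (fixConst k Q).ncard = Q := by
  classical
  set f : Polynomial k := Polynomial.X ^ Q - Polynomial.X with hf
  have hne : f ≠ 0 := FiniteField.X_pow_card_sub_X_ne_zero k hQ
  have hsep : f.Separable := by
    rw [Polynomial.separable_def, hf, Polynomial.derivative_sub, Polynomial.derivative_X_pow,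
      Polynomial.derivative_X, h0, map_zero, zero_mul, zero_sub]
    exact isCoprime_one_right.neg_right
  have hset : fixConst k Q = f.roots.toFinset := by
    ext x
    rw [Finset.mem_coe, Multiset.mem_toFinset, Polynomial.mem_roots hne]
    simp [hf, fixConst, sub_eq_zero]
  rw [hset, Set.ncard_coe_finset, Multiset.toFinset_card_of_nodup (Polynomial.nodup_roots hsep),
    (Polynomial.splits_iff_card_roots).1 (IsAlgClosed.splits f)]
  exact FiniteField.X_pow_card_sub_X_natDegree_eq k hQ

/-- A nonzero additive polynomial of degree `< Q ^ s` has a non-root among the `Q ^ s` fixed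
constants. -/
theorem exists_sum_ne_zero {L : Type*} [Field L] [Algebra k L] (hQ : 1 < Q) (h0 : (Q : k) = 0)
    {s : ℕ} (hs : 0 < s) (c : ℕ → L) (hc : c 0 ≠ 0) :
    ∃ z : k, z ^ Q ^ s = z ∧
      ∑ i ∈ Finset.range s, c i * algebraMap k L (z ^ Q ^ i) ≠ 0 := by
  classical
  by_contra h
  push Not at h
  set P : Polynomial L :=
    ∑ i ∈ Finset.range s, Polynomial.C (c i) * Polynomial.X ^ Q ^ i with hP
  have hdeg : P.natDegree < Q ^ s := by
    refine lt_of_le_of_lt (Polynomial.natDegree_sum_le_of_forall_le (n := Q ^ (s - 1)) _ _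
      fun i hi => ?_) (Nat.pow_lt_pow_right hQ (by omega))
    refine le_trans (Polynomial.natDegree_C_mul_X_pow_le _ _) (Nat.pow_le_pow_right (by omega) ?_)
    rw [Finset.mem_range] at hi
    omega
  have hP0 : P ≠ 0 := fun h' => hc (by
    have := congrArg (fun p : Polynomial L => p.coeff 1) h'
    simp only [hP, Polynomial.finsetSum_coeff, Polynomial.coeff_C_mul, Polynomial.coeff_X_pow,
      mul_ite, mul_one, mul_zero, Polynomial.coeff_zero] at this
    rwa [Finset.sum_eq_single 0
      (fun i _ hi => by rw [if_neg]; exact (Nat.one_lt_pow hi hQ).ne)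
      (fun h0 => absurd (Finset.mem_range.2 hs) h0), pow_zero, if_pos rfl] at this)
  have h1 : 1 < Q ^ s := Nat.one_lt_pow hs.ne' hQ
  have hle : ((finite_fixConst h1).toFinset.image (algebraMap k L)).card ≤ P.natDegree := by
    refine le_trans (Finset.card_le_card (t := P.roots.toFinset) fun y hy => ?_)
      ((Multiset.toFinset_card_le _).trans (Polynomial.card_roots' P))
    obtain ⟨z, hz, rfl⟩ := Finset.mem_image.1 hy
    rw [Multiset.mem_toFinset, Polynomial.mem_roots hP0, Polynomial.IsRoot, hP,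
      Polynomial.eval_finsetSum]
    simpa using h z ((Set.Finite.mem_toFinset (finite_fixConst h1)).1 hz)
  rw [Finset.card_image_of_injective _ (algebraMap k L).injective,
    ← Set.ncard_eq_toFinset_card _ (finite_fixConst h1),
    ncard_fixConst h1 (by rw [Nat.cast_pow, h0, zero_pow hs.ne'])] at hle
  omega

end Constants

variable [IsAlgClosed k] [FF.IsFF k F]

theorem smul_divisorOf (ψ : SemilinearAut k F) (f : F) :
    ψ • (FF.divisorOf f : Divisor k F) = FF.divisorOf (ψ • f) := by
  refine Finsupp.ext fun w => ?_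
  rw [SemilinearAut.divisor_smul_apply, FF.divisorOf_apply, FF.divisorOf_apply,
    ← SemilinearAut.ord_smul ψ (ψ⁻¹ • w) f, smul_inv_smul]

theorem divisorOf_mul {f g : F} (hf : f ≠ 0) (hg : g ≠ 0) :
    (FF.divisorOf (f * g) : Divisor k F) = FF.divisorOf f + FF.divisorOf g :=
  Finsupp.ext fun v => by simp [FF.divisorOf_apply, v.ord_mul hf hg]

theorem divisorOf_one : (FF.divisorOf (1 : F) : Divisor k F) = 0 :=
  Finsupp.ext fun v => by simp [FF.divisorOf_apply]

theorem divisorOf_algebraMap (c : k) : (FF.divisorOf (algebraMap k F c) : Divisor k F) = 0 :=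
  Finsupp.ext fun v => by simp [FF.divisorOf_apply, FF.ord_algebraMap]

theorem isPrincipal_divisorOf {f : F} (hf : f ≠ 0) :
    Divisor.IsPrincipal (FF.divisorOf f : Divisor k F) :=
  ⟨f, hf, fun v => FF.divisorOf_apply f v⟩

theorem eq_divisorOf {D : Divisor k F} {f : F} (h : ∀ v, D v = v.ord f) : D = FF.divisorOf f :=
  Finsupp.ext fun v => (h v).trans (FF.divisorOf_apply f v).symm

theorem exists_const_of_divisorOf_eq_zero {f : F} (h : (FF.divisorOf f : Divisor k F) = 0) :
    ∃ c : k, algebraMap k F c = f :=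
  FF.mem_range_of_forall_ord_nonneg (K := k) fun v => by
    rw [← FF.divisorOf_apply f v, h]
    simp

/-- Places are periodic. -/
theorem exists_period_place (hψ : IsFrob ψ Q) (v : Place k F) :
    ∃ s, 0 < s ∧ (ψ ^ s) • v = v := by
  set g := genusFF k F with hg
  set D : Divisor k F := Finsupp.single v ((2 * g + 1 : ℕ) : ℤ) with hD
  have hdeg : Divisor.degree D = (2 * g + 1 : ℕ) := by
    rw [hD, Divisor.degree_single, FF.deg_eq_one v, Nat.cast_one, mul_one]
  have hell := FF.ell_eq_of_large (D := D) (by rw [hdeg, ← hg]; push_cast; omega)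
  rw [hdeg, ← hg] at hell
  have hlt : ¬ riemannRochSpace D ≤ riemannRochSpace (0 : Divisor k F) := fun hle => by
    have h1 : FF.ell D ≤ FF.ell (0 : Divisor k F) := Submodule.finrank_mono hle
    rw [FF.ell_zero] at h1
    omega
  obtain ⟨f, hf, hf0⟩ := SetLike.not_le_iff_exists.1 hlt
  have hfne : f ≠ 0 := fun h => hf0 (by rw [h]; exact zero_mem _)
  have hord : ∀ w, w ≠ v → 0 ≤ w.ord f := fun w hw => by
    have := FF.ord_of_mem_riemannRochSpace hf hfne w
    simp only [hD, Finsupp.single_eq_of_ne hw] at this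
    omega
  have hv : v.ord f < 0 := by
    by_contra h
    refine hf0 (FF.mem_riemannRochSpace_of_ord fun w => ?_)
    rw [Finsupp.coe_zero, Pi.zero_apply, neg_zero]
    rcases eq_or_ne w v with rfl | hw
    exacts [not_lt.1 h, hord w hw]
  obtain ⟨s, hs, hfix⟩ := hψ.periodic f
  refine ⟨s, hs, ?_⟩
  by_contra hne
  have h1 := hord _ hne
  rw [← hfix, SemilinearAut.ord_smul] at h1
  omega

theorem exists_period_divisor (hψ : IsFrob ψ Q) (D : Divisor k F) :
    ∃ s, 0 < s ∧ (ψ ^ s) • D = D := by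
  induction D using Finsupp.induction with
  | zero => exact ⟨1, one_pos, smul_zero _⟩
  | single_add v n D _ _ ih =>
    obtain ⟨s, hs, h⟩ := ih
    obtain ⟨t, ht, hv⟩ := exists_period_place hψ v
    refine ⟨s * t, Nat.mul_pos hs ht, ?_⟩
    rw [smul_add, SemilinearAut.smul_single, pow_smul_of_dvd hv (dvd_mul_left t s),
      pow_smul_of_dvd h (dvd_mul_right s t)]

/-- The partial norms `f · ψf ⋯ ψ^{i-1} f`. -/
def partNorm (ψ : SemilinearAut k F) (f : F) : ℕ → F
  | 0 => 1
  | i + 1 => f * ψ • partNorm ψ f i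

omit [IsAlgClosed k] [FF.IsFF k F] in
theorem partNorm_succ' (f : F) :
    ∀ i, partNorm ψ f (i + 1) = partNorm ψ f i * (ψ ^ i) • f := by
  intro i
  induction i with
  | zero => simp [partNorm]
  | succ i ih =>
    conv_lhs => rw [partNorm, ih]
    rw [smul_mul', ← mul_smul ψ (ψ ^ i) f, ← pow_succ', ← mul_assoc]
    rfl

omit [IsAlgClosed k] [FF.IsFF k F] in
theorem partNorm_ne_zero {f : F} (hf : f ≠ 0) : ∀ i, partNorm ψ f i ≠ 0 := by
  intro i
  induction i with
  | zero => exact one_ne_zero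
  | succ i ih => exact mul_ne_zero hf (by rwa [Ne, smul_eq_zero_iff_eq])

/-- A divisor whose class is fixed is equivalent to a fixed divisor. -/
theorem exists_fixed_divisor (hψ : IsFrob ψ Q) {D : Divisor k F}
    (h : Divisor.IsPrincipal (ψ • D - D)) :
    ∃ y : F, y ≠ 0 ∧ ψ • (D + FF.divisorOf y) = D + FF.divisorOf y := by
  obtain ⟨f, hf, hdiv⟩ := h
  have hD : ψ • D = D + FF.divisorOf f := by rw [← eq_divisorOf hdiv]; abel
  obtain ⟨s₁, hs₁, h₁⟩ := exists_period_divisor hψ D
  obtain ⟨s₂, hs₂, h₂⟩ := hψ.periodic f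
  set s := s₁ * s₂ with hs
  have hs0 : 0 < s := Nat.mul_pos hs₁ hs₂
  have hDs : (ψ ^ s) • D = D := pow_smul_of_dvd h₁ (dvd_mul_right _ _)
  have hfs : (ψ ^ s) • f = f := pow_smul_of_dvd h₂ (dvd_mul_left _ _)
  have hiter : ∀ i, (ψ ^ i) • D = D + FF.divisorOf (partNorm ψ f i) := by
    intro i
    induction i with
    | zero => simp [partNorm, divisorOf_one]
    | succ i ih =>
      rw [pow_succ', mul_smul, ih, smul_add, hD, smul_divisorOf, add_assoc, partNorm,
        divisorOf_mul hf (by rw [Ne, smul_eq_zero_iff_eq]; exact partNorm_ne_zero hf i)]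
  have hN : (FF.divisorOf (partNorm ψ f s) : Divisor k F) = 0 := by
    have := hiter s
    rw [hDs] at this
    exact left_eq_add.1 this
  obtain ⟨c, hc⟩ := exists_const_of_divisorOf_eq_zero hN
  have hc0 : c ≠ 0 := fun h0 => partNorm_ne_zero hf s (by rw [← hc, h0, map_zero])
  have hcQ : c ^ Q = c := by
    apply (algebraMap k F).injective
    rw [← frob_smul_algebraMap hψ, hc]
    apply mul_left_cancel₀ hf
    show partNorm ψ f (s + 1) = _
    rw [partNorm_succ', hfs, mul_comm]
  set M := ∑ i ∈ Finset.range s, Q ^ i with hM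
  have hM0 : 0 < M := Finset.sum_pos (fun i _ => pow_pos (by have := hψ.one_lt; omega) _)
    (by simpa using hs0.ne')
  obtain ⟨a, ha⟩ := IsAlgClosed.exists_pow_nat_eq (c⁻¹) hM0
  have ha0 : a ≠ 0 := fun h0 => inv_ne_zero hc0 (by rw [← ha, h0, zero_pow hM0.ne'])
  have hQM : Q ^ s = M * (Q - 1) + 1 := by
    have := geom_sum_mul_of_one_le hψ.one_lt.le s
    rw [← hM] at this
    have h1 : 1 ≤ Q ^ s := Nat.one_le_pow _ _ (by have := hψ.one_lt; omega)
    rw [this]
    omega
  have haQ : a ^ Q ^ s = a := by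
    have h1 : c ^ (Q - 1) = 1 := by
      apply mul_left_cancel₀ hc0
      rw [← pow_succ', Nat.sub_add_cancel hψ.one_lt.le, hcQ, mul_one]
    rw [hQM, pow_succ, pow_mul, ha, inv_pow, h1, inv_one, one_mul]
  set f' := algebraMap k F a * f with hf'
  have hf'0 : f' ≠ 0 := mul_ne_zero (by simpa using ha0) hf
  have hf's : (ψ ^ s) • f' = f' := by
    rw [hf', smul_mul', pow_smul_algebraMap hψ, haQ, hfs]
  have hscale : ∀ i, partNorm ψ f' i =
      algebraMap k F (a ^ (∑ l ∈ Finset.range i, Q ^ l)) * partNorm ψ f i := by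
    intro i
    induction i with
    | zero => simp [partNorm]
    | succ i ih =>
      rw [partNorm, partNorm, ih, smul_mul', frob_smul_algebraMap hψ, ← pow_mul,
        Finset.sum_range_succ', pow_zero, pow_add, pow_one, map_mul, hf', Finset.sum_mul]
      simp only [← pow_succ]
      ring
  have hPs : partNorm ψ f' s = 1 := by
    rw [hscale s, ← hM, ha, ← hc, ← map_mul, inv_mul_cancel₀ hc0, map_one]
  obtain ⟨z, hz, hy⟩ := exists_sum_ne_zero (L := F) (k := k) hψ.one_lt hψ.cast_eq_zero hs0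
    (partNorm ψ f') one_ne_zero
  set y := ∑ i ∈ Finset.range s, partNorm ψ f' i * algebraMap k F (z ^ Q ^ i) with hydef
  have hψy : f' * ψ • y = y := by
    rw [hydef, Finset.smul_sum, Finset.mul_sum]
    have h1 : ∀ i ∈ Finset.range s, f' * ψ • (partNorm ψ f' i * algebraMap k F (z ^ Q ^ i)) =
        partNorm ψ f' (i + 1) * algebraMap k F (z ^ Q ^ (i + 1)) := fun i _ => by
      rw [smul_mul', frob_smul_algebraMap hψ, ← pow_mul, ← pow_succ, partNorm]
      ring
    rw [Finset.sum_congr rfl h1]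
    have h2 := Finset.sum_range_succ'
      (fun i => partNorm ψ f' i * algebraMap k F (z ^ Q ^ i)) s
    rw [Finset.sum_range_succ, hPs, hz, partNorm, pow_zero, pow_one] at h2
    exact (add_right_cancel h2).symm
  refine ⟨y, hy, ?_⟩
  have hψy0 : ψ • y ≠ 0 := by rwa [Ne, smul_eq_zero_iff_eq]
  have h3 := congrArg (fun u => (FF.divisorOf u : Divisor k F)) hψy
  have hdf : (FF.divisorOf f' : Divisor k F) = FF.divisorOf f := by
    rw [hf', divisorOf_mul (by simpa using ha0) hf, divisorOf_algebraMap, zero_add]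
  simp only [divisorOf_mul hf'0 hψy0, hdf] at h3
  rw [smul_add, hD, smul_divisorOf, add_assoc, h3]

/-- The fixed part of `L(D)`. -/
def fixRR (ψ : SemilinearAut k F) (D : Divisor k F) : Set F :=
  {v | v ∈ riemannRochSpace D ∧ ψ • v = v}

theorem smul_mem_riemannRochSpace {D : Divisor k F} (hD : ψ • D = D) {v : F}
    (hv : v ∈ riemannRochSpace D) : ψ • v ∈ riemannRochSpace D := by
  rcases eq_or_ne v 0 with rfl | hv0
  · rw [smul_zero]; exact zero_mem _
  refine FF.mem_riemannRochSpace_of_ord fun w => ?_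
  have h1 := FF.ord_of_mem_riemannRochSpace hv hv0 (ψ⁻¹ • w)
  have h2 : D (ψ⁻¹ • w) = D w := by rw [← SemilinearAut.divisor_smul_apply, hD]
  rwa [h2, ← SemilinearAut.ord_smul ψ (ψ⁻¹ • w) v, smul_inv_smul] at h1

theorem frob_smul_smul (hψ : IsFrob ψ Q) (c : k) (v : F) :
    ψ • (c • v) = c ^ Q • (ψ • v) := by
  rw [Algebra.smul_def, smul_mul', frob_smul_algebraMap hψ, ← Algebra.smul_def]

/-- `L(D)` has a basis of fixed elements. -/
theorem span_fixRR (hψ : IsFrob ψ Q) {D : Divisor k F} (hD : ψ • D = D) :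
    Submodule.span k (fixRR ψ D) = riemannRochSpace D := by
  refine le_antisymm (Submodule.span_le.2 fun v hv => hv.1) fun v hv => ?_
  by_contra hnot
  obtain ⟨lam, hlv, hle⟩ := Submodule.exists_le_ker_of_notMem hnot
  obtain ⟨s, hs, hsv⟩ := hψ.periodic v
  obtain ⟨z, hz, hne⟩ := exists_sum_ne_zero (L := k) (k := k) hψ.one_lt hψ.cast_eq_zero hs
    (fun i => lam ((ψ ^ i) • v)) (by simpa using hlv)
  set y := ∑ i ∈ Finset.range s, (z ^ Q ^ i) • ((ψ ^ i) • v) with hy
  have hyfix : ψ • y = y := by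
    rw [hy, Finset.smul_sum]
    have h1 : ∀ i ∈ Finset.range s, ψ • ((z ^ Q ^ i) • ((ψ ^ i) • v)) =
        (z ^ Q ^ (i + 1)) • ((ψ ^ (i + 1)) • v) := fun i _ => by
      rw [frob_smul_smul hψ, ← pow_mul, ← pow_succ, ← mul_smul ψ (ψ ^ i) v, ← pow_succ']
    rw [Finset.sum_congr rfl h1]
    have h2 := Finset.sum_range_succ' (fun i => (z ^ Q ^ i) • ((ψ ^ i) • v)) s
    rw [Finset.sum_range_succ, hz, hsv, pow_zero, pow_one, pow_zero, one_smul] at h2
    exact (add_right_cancel h2).symm
  have hymem : ∀ i, (ψ ^ i) • v ∈ riemannRochSpace D := by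
    intro i
    induction i with
    | zero => simpa using hv
    | succ i ih => rw [pow_succ', mul_smul]; exact smul_mem_riemannRochSpace hD ih
  have : lam y = 0 := hle (Submodule.subset_span
    ⟨sum_mem fun i _ => Submodule.smul_mem _ _ (hymem i), hyfix⟩)
  rw [hy, map_sum] at this
  exact hne (by simpa [mul_comm] using this)

theorem finite_ncard_fixRR (hψ : IsFrob ψ Q) {D : Divisor k F} (hD : ψ • D = D) :
    (fixRR ψ D).Finite ∧ (fixRR ψ D).ncard = Q ^ FF.ell D := by
  classical
  obtain ⟨b, hbs, hspan, hli⟩ := exists_linearIndependent k (fixRR ψ D)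
  rw [span_fixRR hψ hD] at hspan
  have hbL : ∀ x : b, (x : F) ∈ riemannRochSpace D := fun x => (hbs x.2).1
  have hli' : LinearIndependent k (fun x : b => (⟨x.1, hbL x⟩ : riemannRochSpace D)) :=
    LinearIndependent.of_comp (riemannRochSpace D).subtype hli
  have : Finite b := hli'.finite
  have := Fintype.ofFinite b
  have hcard : Fintype.card b = FF.ell D := by
    rw [← finrank_span_eq_card hli]
    show _ = Module.finrank k (riemannRochSpace D)
    rw [Subtype.range_coe, hspan]
  let e : (b → fixConst k Q) → F := fun a => ∑ i, (a i : k) • (i : F)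
  have he : Set.range e = fixRR ψ D := by
    ext v
    refine ⟨?_, fun hv => ?_⟩
    · rintro ⟨a, rfl⟩
      refine ⟨sum_mem fun i _ => Submodule.smul_mem _ _ (hbL i), ?_⟩
      rw [Finset.smul_sum]
      refine Finset.sum_congr rfl fun i _ => ?_
      rw [frob_smul_smul hψ, (hbs i.2).2, (a i).2]
    · have hvs : v ∈ Submodule.span k (Set.range ((↑) : b → F)) := by
        rw [Subtype.range_coe, hspan]; exact hv.1
      obtain ⟨a, ha⟩ := (Submodule.mem_span_range_iff_exists_fun k).1 hvs
      have hfix : ∑ i, (a i ^ Q - a i) • (i : F) = 0 := by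
        simp only [sub_smul, Finset.sum_sub_distrib]
        rw [ha, sub_eq_zero]
        conv_rhs => rw [← hv.2, ← ha, Finset.smul_sum]
        exact Finset.sum_congr rfl fun i _ => by rw [frob_smul_smul hψ, (hbs i.2).2]
      refine ⟨fun i => ⟨a i, sub_eq_zero.1 ?_⟩, ha⟩
      exact (Fintype.linearIndependent_iff.1 hli) _ hfix i
  have hinj : Function.Injective e := fun a a' h => funext fun i => Subtype.ext <| sub_eq_zero.1 <|
    (Fintype.linearIndependent_iff.1 hli) (fun j => (a j : k) - a' j)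
      (by simp only [sub_smul, Finset.sum_sub_distrib]; exact sub_eq_zero.2 h) i
  have : Finite (fixConst k Q) := (finite_fixConst hψ.one_lt).to_subtype
  rw [← he]
  refine ⟨Set.finite_range e, ?_⟩
  rw [← Nat.card_coe_set_eq, Nat.card_range_of_injective hinj, Nat.card_fun, Nat.card_coe_set_eq,
    ncard_fixConst hψ.one_lt hψ.cast_eq_zero, Nat.card_eq_fintype_card, hcard]

/-- An effective divisor seen as a divisor. -/
def toDiv (E : Place k F →₀ ℕ) : Divisor k F := E.mapRange Nat.cast Nat.cast_zero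

omit [IsAlgClosed k] [FF.IsFF k F] in
theorem toDiv_apply (E : Place k F →₀ ℕ) (v : Place k F) : toDiv E v = (E v : ℤ) :=
  Finsupp.mapRange_apply ..

omit [IsAlgClosed k] [FF.IsFF k F] in
theorem toDiv_injective : Function.Injective (toDiv (k := k) (F := F)) :=
  fun E E' h => Finsupp.ext fun v => by
    have := DFunLike.congr_fun h v
    rw [toDiv_apply, toDiv_apply] at this
    exact_mod_cast this

omit [IsAlgClosed k] [FF.IsFF k F] in
theorem smul_toDiv_iff {E : Place k F →₀ ℕ} :
    ψ • toDiv E = toDiv E ↔ ∀ v, E (ψ • v) = E v := by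
  refine ⟨fun h v => ?_, fun h => Finsupp.ext fun w => ?_⟩
  · have := DFunLike.congr_fun h (ψ • v)
    rw [SemilinearAut.divisor_smul_apply_smul, toDiv_apply, toDiv_apply] at this
    exact_mod_cast this.symm
  · rw [SemilinearAut.divisor_smul_apply, toDiv_apply, toDiv_apply, ← h (ψ⁻¹ • w), smul_inv_smul]

theorem degree_toDiv (E : Place k F →₀ ℕ) :
    Divisor.degree (toDiv E) = ((E.sum fun _ n => n : ℕ) : ℤ) := by
  rw [FF.degree_eq_sum, toDiv, Finsupp.sum_mapRange_index (fun _ => rfl), Finsupp.sum,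
    Finsupp.sum, Nat.cast_sum]

theorem exists_toDiv {E : Divisor k F} (h : 0 ≤ E) : ∃ E' : Place k F →₀ ℕ, toDiv E' = E :=
  ⟨E.mapRange Int.toNat rfl, Finsupp.ext fun v => by
    rw [toDiv_apply, Finsupp.mapRange_apply, Int.toNat_of_nonneg]
    simpa using Finsupp.le_def.1 h v⟩

/-- Fixed effective divisors equivalent to `D`. -/
def effClass (ψ : SemilinearAut k F) (D : Divisor k F) : Set (Place k F →₀ ℕ) :=
  {E | (∀ v, E (ψ • v) = E v) ∧ Divisor.IsPrincipal (toDiv E - D)}

/-- The fixed effective divisors equivalent to a fixed divisor `D`, counted by the fixed part of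
`L(D)`. -/
theorem card_effClass (hψ : IsFrob ψ Q) {D : Divisor k F} (hD : ψ • D = D) :
    (effClass ψ D).Finite ∧ (Q - 1) * (effClass ψ D).ncard + 1 = Q ^ FF.ell D := by
  classical
  obtain ⟨hfin, hcard⟩ := finite_ncard_fixRR hψ hD
  have hgen : ∀ E : effClass ψ D, ∃ v : F, v ≠ 0 ∧ ψ • v = v ∧
      toDiv E.1 = D + FF.divisorOf v := by
    rintro ⟨E, hE, f, hf, hdiv⟩
    have hEf : toDiv E = D + FF.divisorOf f := by rw [← eq_divisorOf hdiv]; abel
    have hψf : ψ • f ≠ 0 := by rwa [Ne, smul_eq_zero_iff_eq]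
    have hq : (FF.divisorOf (ψ • f * f⁻¹) : Divisor k F) = 0 := by
      have h1 := congrArg (fun X => ψ • X) hEf
      simp only [smul_add, hD, smul_toDiv_iff.2 hE, smul_divisorOf] at h1
      rw [hEf] at h1
      refine Finsupp.ext fun w => ?_
      have h2 := DFunLike.congr_fun (add_left_cancel h1) w
      rw [FF.divisorOf_apply, FF.divisorOf_apply] at h2
      rw [FF.divisorOf_apply, w.ord_mul hψf (inv_ne_zero hf), w.ord_inv, ← h2]
      simp
    obtain ⟨c, hc⟩ := exists_const_of_divisorOf_eq_zero hq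
    have hc0 : c ≠ 0 := fun h0 => mul_ne_zero hψf (inv_ne_zero hf) (by rw [← hc, h0, map_zero])
    have hQ1 : 0 < Q - 1 := by have := hψ.one_lt; omega
    obtain ⟨a, ha⟩ := IsAlgClosed.exists_pow_nat_eq (c⁻¹) hQ1
    have ha0 : a ≠ 0 := fun h0 => inv_ne_zero hc0 (by rw [← ha, h0, zero_pow hQ1.ne'])
    refine ⟨algebraMap k F a * f, mul_ne_zero (by simpa using ha0) hf, ?_, ?_⟩
    · have hψf' : ψ • f = algebraMap k F c * f := by
        rw [hc, mul_assoc, inv_mul_cancel₀ hf, mul_one]
      rw [smul_mul', frob_smul_algebraMap hψ, hψf', ← mul_assoc, ← map_mul]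
      congr 2
      rw [show Q = Q - 1 + 1 by omega, pow_succ, ha, mul_comm, ← mul_assoc, mul_inv_cancel₀ hc0,
        one_mul]
    · rw [divisorOf_mul (by simpa using ha0) hf, divisorOf_algebraMap, zero_add]
      exact hEf
  choose gen hg0 hgfix hgdiv using hgen
  let U : Set k := fixConst k Q \ {0}
  have hU : U.ncard = Q - 1 := by
    rw [Set.ncard_sdiff_singleton_of_mem
      (show (0 : k) ∈ fixConst k Q from zero_pow (by have := hψ.one_lt; omega)),
      ncard_fixConst hψ.one_lt hψ.cast_eq_zero]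
  let T : Set F := fixRR ψ D \ {0}
  have h0mem : (0 : F) ∈ fixRR ψ D := ⟨zero_mem _, smul_zero _⟩
  have hmem : ∀ (E : effClass ψ D) (c : U), algebraMap k F c.1 * gen E ∈ T := by
    intro E c
    have hc0 : c.1 ≠ 0 := c.2.2
    refine ⟨⟨?_, ?_⟩, mul_ne_zero (by simpa using hc0) (hg0 E)⟩
    · refine FF.mem_riemannRochSpace_of_ord fun w => ?_
      rw [w.ord_mul (by simpa using hc0) (hg0 E), FF.ord_algebraMap, zero_add]
      have := DFunLike.congr_fun (hgdiv E) w
      rw [toDiv_apply, Finsupp.add_apply, FF.divisorOf_apply] at this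
      omega
    · rw [smul_mul', frob_smul_algebraMap hψ, hgfix E, show c.1 ^ Q = c.1 from c.2.1]
  let Φ : effClass ψ D × U → T := fun x => ⟨_, hmem x.1 x.2⟩
  have hΦ : Function.Bijective Φ := by
    refine ⟨fun x y h => ?_, fun v => ?_⟩
    · have h1 : algebraMap k F x.2.1 * gen x.1 = algebraMap k F y.2.1 * gen y.1 :=
        congrArg Subtype.val h
      have hx0 : algebraMap k F x.2.1 ≠ 0 := (map_ne_zero _).2 x.2.2.2
      have hy0 : algebraMap k F y.2.1 ≠ 0 := (map_ne_zero _).2 y.2.2.2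
      have h2 := congrArg (fun u => (FF.divisorOf u : Divisor k F)) h1
      simp only [divisorOf_mul hx0 (hg0 _), divisorOf_mul hy0 (hg0 _), divisorOf_algebraMap,
        zero_add] at h2
      have h3 : x.1 = y.1 := Subtype.ext (toDiv_injective (by rw [hgdiv, hgdiv, h2]))
      refine Prod.ext h3 (Subtype.ext ((algebraMap k F).injective ?_))
      rw [h3] at h1
      exact mul_right_cancel₀ (hg0 _) h1
    · obtain ⟨⟨hv, hvfix⟩, hv0⟩ := v.2
      obtain ⟨E, hE, -, hEv⟩ := FF.exists_effective_equiv hv hv0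
      obtain ⟨E', rfl⟩ := exists_toDiv hE
      have hEd : toDiv E' = D + FF.divisorOf v.1 :=
        Finsupp.ext fun w => by rw [hEv, Finsupp.add_apply, FF.divisorOf_apply]
      have hEmem : E' ∈ effClass ψ D := by
        refine ⟨smul_toDiv_iff.1 ?_, ?_⟩
        · rw [hEd, smul_add, hD, smul_divisorOf, hvfix]
        · rw [hEd, add_sub_cancel_left]; exact isPrincipal_divisorOf hv0
      set E₀ : effClass ψ D := ⟨E', hEmem⟩
      have hq : (FF.divisorOf (v.1 * (gen E₀)⁻¹) : Divisor k F) = 0 := by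
        refine Finsupp.ext fun w => ?_
        have h2 := DFunLike.congr_fun (add_left_cancel ((hgdiv E₀).symm.trans hEd)) w
        rw [FF.divisorOf_apply, FF.divisorOf_apply] at h2
        rw [FF.divisorOf_apply, w.ord_mul hv0 (inv_ne_zero (hg0 _)), w.ord_inv, h2]
        simp
      obtain ⟨c, hc⟩ := exists_const_of_divisorOf_eq_zero hq
      have hcv : algebraMap k F c * gen E₀ = v.1 := by
        rw [hc, mul_assoc, inv_mul_cancel₀ (hg0 _), mul_one]
      have hcU : c ∈ U := by
        refine ⟨(algebraMap k F).injective ?_, fun h0 => hv0 ?_⟩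
        · rw [← frob_smul_algebraMap hψ, hc, smul_mul', smul_inv'', hvfix, hgfix]
        · rw [← hcv, Set.mem_singleton_iff.1 h0, map_zero, zero_mul]; rfl
      exact ⟨⟨E₀, ⟨c, hcU⟩⟩, Subtype.ext hcv⟩
  have hT : T.Finite := hfin.sdiff
  have hUne : Nonempty U := ⟨⟨1, one_pow Q, one_ne_zero⟩⟩
  have : Finite T := hT.to_subtype
  have : Finite (effClass ψ D × U) := Finite.of_injective Φ hΦ.1
  have : Finite (effClass ψ D) := Finite.prod_left U
  refine ⟨Set.toFinite _, ?_⟩
  have hc := Nat.card_eq_of_bijective Φ hΦ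
  rw [Nat.card_prod, Nat.card_coe_set_eq, Nat.card_coe_set_eq, Nat.card_coe_set_eq, hU] at hc
  rw [mul_comm, hc, Set.ncard_sdiff_singleton_add_one h0mem hfin, hcard]

/-- The classes fixed by `ψ`. -/
def fixPic (ψ : SemilinearAut k F) : Set (Pic0 k F) := {x | ψ • x = x}

theorem exists_fixed_rep (hψ : IsFrob ψ Q) {x : Pic0 k F} (hx : x ∈ fixPic ψ) :
    ∃ D : Divisor.degZero (K := k) (F := F), Pic0.mk D = x ∧
      ψ • (D : Divisor k F) = D := by
  obtain ⟨D, rfl⟩ := Pic0.mk_surjective x
  have h : Pic0.mk (SemilinearAut.degZeroSMulHom ψ D) = Pic0.mk D := hx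
  have h1 : Divisor.IsPrincipal (ψ • (D : Divisor k F) - (D : Divisor k F)) := by
    have := (QuotientAddGroup.eq).1 h.symm
    rw [AddSubgroup.mem_addSubgroupOf, AddSubgroup.coe_add, NegMemClass.coe_neg,
      SemilinearAut.coe_degZeroSMulHom, Divisor.mem_principal, neg_add_eq_sub] at this
    exact this
  obtain ⟨y, hy, hfix⟩ := exists_fixed_divisor hψ h1
  refine ⟨⟨(D : Divisor k F) + FF.divisorOf y, ?_⟩, ?_, hfix⟩
  · rw [Divisor.mem_degZero, map_add, Divisor.mem_degZero.1 D.2, FF.degree_divisorOf, add_zero]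
  · refine (QuotientAddGroup.eq).2 ?_
    rw [AddSubgroup.mem_addSubgroupOf, AddSubgroup.coe_add, NegMemClass.coe_neg,
      Divisor.mem_principal]
    rw [show -((D : Divisor k F) + FF.divisorOf y) + (D : Divisor k F) = -(FF.divisorOf y : Divisor k F) by abel,
      show -(FF.divisorOf y : Divisor k F) = FF.divisorOf y⁻¹ from
        Finsupp.ext fun w => by simp [FF.divisorOf_apply, w.ord_inv]]
    exact isPrincipal_divisorOf (inv_ne_zero hy)

/-- The count of fixed effective divisors. -/
theorem effCard_eq (hψ : IsFrob ψ Q) :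
    (fixPic ψ).Finite ∧ ∀ d, 2 * genusFF k F ≤ d + 1 →
      ((Q : ℤ) - 1) * effCard (MulAction.toPerm ψ : Equiv.Perm (Place k F)) d +
          (fixPic ψ).ncard =
        (fixPic ψ).ncard * (Q : ℤ) ^ (d + 1 - genusFF k F) := by
  classical
  obtain ⟨P, hP⟩ := hψ.fixedPlace
  set σ : Equiv.Perm (Place k F) := MulAction.toPerm ψ with hσdef
  have hσpow : ∀ (s : ℕ) (v : Place k F), (σ ^ s) v = (ψ ^ s) • v := fun s v => by
    induction s with
    | zero => simp
    | succ s ih => rw [pow_succ', Equiv.Perm.mul_apply, ih, pow_succ', mul_smul]; rfl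
  have hσ : ∀ v, ∃ s, 0 < s ∧ (σ ^ s) v = v := fun v => by
    obtain ⟨s, hs, h⟩ := exists_period_place hψ v
    exact ⟨s, hs, (hσpow s v).trans h⟩
  have hfix : ∀ s, 0 < s → (fixSet σ s).Finite := fun s hs => by
    refine (hψ.finFix s hs).subset fun v hv => ?_
    show (ψ ^ s) • v = v
    rw [← hσpow]
    exact hv
  choose rep hrep hrepfix using fun x : fixPic ψ => exists_fixed_rep hψ x.2
  let D : ℕ → fixPic ψ → Divisor k F := fun d x =>
    (rep x : Divisor k F) + Finsupp.single P (d : ℤ)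
  have hDfix : ∀ d x, ψ • D d x = D d x := fun d x => by
    simp only [D, smul_add, hrepfix, SemilinearAut.smul_single, hP]
  have hDdeg : ∀ d x, Divisor.degree (D d x) = d := fun d x => by
    simp only [D, map_add, Divisor.mem_degZero.1 (rep x).2, Divisor.degree_single,
      FF.deg_eq_one P, Nat.cast_one, mul_one, zero_add]
  have hdeg : ∀ (d : ℕ) (E : Place k F →₀ ℕ), (E.sum fun _ n => n) = d →
      toDiv E - Finsupp.single P (d : ℤ) ∈ Divisor.degZero (K := k) (F := F) := fun d E hE => by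
    rw [Divisor.mem_degZero, map_sub, degree_toDiv, Divisor.degree_single, FF.deg_eq_one P, hE]
    simp
  have hmem : ∀ (d : ℕ) (x : fixPic ψ), ∀ E ∈ effClass ψ (D d x), E ∈ effSet σ d := by
    rintro d x E ⟨hE, hp⟩
    refine ⟨hE, ?_⟩
    have := FF.degree_eq_of_isPrincipal hp
    rw [map_sub, degree_toDiv, hDdeg, sub_eq_zero] at this
    exact_mod_cast this
  have hclass : ∀ (d : ℕ) (E : Place k F →₀ ℕ) (hE : E ∈ effSet σ d),
      Pic0.mk ⟨_, hdeg d E hE.2⟩ ∈ fixPic ψ := fun d E hE => by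
    show ψ • Pic0.mk _ = _
    rw [SemilinearAut.pic0_smul_mk]
    refine congrArg _ (Subtype.ext ?_)
    rw [SemilinearAut.coe_degZeroSMulHom, smul_sub, smul_toDiv_iff.2 hE.1,
      SemilinearAut.smul_single, hP]
  have hequiv : ∀ (d : ℕ) (x : fixPic ψ) (E : Place k F →₀ ℕ) (hE : E ∈ effSet σ d),
      E ∈ effClass ψ (D d x) ↔ Pic0.mk ⟨_, hdeg d E hE.2⟩ = (x : Pic0 k F) := by
    intro d x E hE
    rw [← hrep x, eq_comm]
    refine ⟨fun h => (QuotientAddGroup.eq).2 ?_, fun h => ⟨hE.1, ?_⟩⟩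
    · rw [AddSubgroup.mem_addSubgroupOf, AddSubgroup.coe_add, NegMemClass.coe_neg,
        Divisor.mem_principal]
      convert h.2 using 1
      simp only [D]; abel
    · have := (QuotientAddGroup.eq).1 h
      rw [AddSubgroup.mem_addSubgroupOf, AddSubgroup.coe_add, NegMemClass.coe_neg,
        Divisor.mem_principal] at this
      convert this using 1
      simp only [D]; abel
  let Φ : ∀ d, (Σ x : fixPic ψ, effClass ψ (D d x)) → effSet σ d := fun d y =>
    ⟨y.2.1, hmem d y.1 y.2.1 y.2.2⟩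
  have hΦ : ∀ d, Function.Bijective (Φ d) := by
    intro d
    refine ⟨fun y z h => ?_, fun E => ?_⟩
    · obtain ⟨x, E, hE⟩ := y
      obtain ⟨x', E', hE'⟩ := z
      have hEE : E = E' := congrArg Subtype.val h
      subst hEE
      obtain rfl : x = x' := Subtype.ext
        (((hequiv d x E (hmem d x E hE)).1 hE).symm.trans ((hequiv d x' E (hmem d x E hE)).1 hE'))
      rfl
    · exact ⟨⟨⟨_, hclass d E.1 E.2⟩, ⟨E.1, (hequiv d _ E.1 E.2).2 rfl⟩⟩, rfl⟩
  set g := genusFF k F with hg
  have hell : ∀ d x, 2 * g ≤ d + 1 → FF.ell (D d x) = d + 1 - g := fun d x hd => by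
    have := FF.ell_eq_of_large (D := D d x) (by rw [hDdeg, ← hg]; omega)
    rw [hDdeg, ← hg] at this
    omega
  have hne : ∀ x, Nonempty (effClass ψ (D (2 * g) x)) := fun x => by
    obtain ⟨-, hc⟩ := card_effClass hψ (hDfix (2 * g) x)
    rw [hell _ _ (Nat.le_succ _)] at hc
    have h2 : 1 < Q ^ (2 * g + 1 - g) := Nat.one_lt_pow (by omega) hψ.one_lt
    have h3 : (effClass ψ (D (2 * g) x)).ncard ≠ 0 := fun h0 => by
      rw [h0, mul_zero] at hc
      omega
    exact (Set.nonempty_of_ncard_ne_zero h3).to_subtype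
  have : Finite (fixPic ψ) := by
    have : Finite (effSet σ (2 * g)) := (finite_effSet hσ hfix _).to_subtype
    refine Finite.of_injective (fun x => Φ (2 * g) ⟨x, (hne x).some⟩) fun x y h => ?_
    exact congrArg Sigma.fst ((hΦ (2 * g)).1 h)
  have := Fintype.ofFinite (fixPic ψ)
  refine ⟨Set.toFinite _, fun d hd => ?_⟩
  have : ∀ x, Finite (effClass ψ (D d x)) := fun x =>
    (card_effClass hψ (hDfix d x)).1.to_subtype
  have := fun x => Fintype.ofFinite (effClass ψ (D d x))
  have hcount : effCard σ d = ∑ x : fixPic ψ, (effClass ψ (D d x)).ncard := by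
    rw [effCard, ← Nat.card_coe_set_eq, ← Nat.card_eq_of_bijective _ (hΦ d), Nat.card_sigma]
    exact Finset.sum_congr rfl fun x _ => Nat.card_coe_set_eq _
  rw [hcount, ← Nat.card_coe_set_eq, Nat.card_eq_fintype_card, Nat.cast_sum, Finset.mul_sum]
  have h1 : ∀ x : fixPic ψ, ((Q : ℤ) - 1) * ((effClass ψ (D d x)).ncard : ℤ) + 1 =
      (Q : ℤ) ^ (d + 1 - g) := fun x => by
    have := (card_effClass hψ (hDfix d x)).2
    rw [hell d x hd] at this
    have h' := congrArg (fun n : ℕ => (n : ℤ)) this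
    push_cast [Nat.cast_sub hψ.one_lt.le] at h'
    exact h'
  have h2 := Finset.sum_congr (rfl : (Finset.univ : Finset (fixPic ψ)) = _) fun x _ => h1 x
  rw [Finset.sum_add_distrib, Finset.sum_const, Finset.sum_const, Finset.card_univ] at h2
  simpa [mul_comm] using h2

end FLTAgent.RedSurj
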