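import Mathlib
import Fermat.Prelude.Def_ModularCurve_X0ModL
import Fermat.Agent.Kronecker.CoeffGalois
import Fermat.Agent.Reduction.GaussField
import Fermat.Agent.RedSurj.Descent

/-!
# The coefficient Frobenius of `k(X₀(N))`

`isFrob_coeffFrob`: over a perfect field `k` of characteristic `q` in which every element is fixed
by a power of Frobenius, the coefficient Frobenius `coeffFrob` of `k(X₀(N))` is of Frobenius type:
the place at infinity is fixed, and fixed places of iterates are finite as `j` is a fixed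
nonconstant function.
-/

set_option autoImplicit false

noncomputable section

open AlgebraicCurve ModularCurve HahnSeries

namespace FLTAgent.RedSurj

variable (k : Type*) [Field k] (N : ℕ) (q : ℕ) [Fact q.Prime] [CharP k q] [PerfectRing k q]

local notation "Fc" => modularFunctionFieldFullC k N

/-- The coefficient Frobenius. -/
def coeffFrob : SemilinearAut k Fc := Kronecker.coeffGalois N (frobeniusEquiv k q)

theorem baseAut_coeffFrob (x : k) : SemilinearAut.baseAut (coeffFrob k N q) x = x ^ q :=
  frobeniusEquiv_def k q x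

theorem coe_coeffFrob_smul (f : Fc) :
    ((coeffFrob k N q • f : Fc) : LaurentSeries k) =
      coeffMap (frobeniusEquiv k q : k →+* k) (f : LaurentSeries k) :=
  rfl

theorem smul_jF [NeZero N] : coeffFrob k N q • Reduction.jF N k = Reduction.jF N k :=
  Subtype.ext ((coe_coeffFrob_smul k N q _).trans (coeffMap_jqModC _))

theorem coeffFrob_periodic (halg : ∀ x : k, ∃ r, 0 < r ∧ x ^ q ^ r = x) (f : Fc) :
    ∃ s, 0 < s ∧ (coeffFrob k N q ^ s) • f = f := by
  have hbase : ∀ (s : ℕ) (x : k),
      (coeffFrob k N q ^ s) • algebraMap k Fc x = algebraMap k Fc (x ^ q ^ s) := by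
    intro s
    induction s with
    | zero => intro x; simp
    | succ s ih =>
      intro x
      rw [pow_succ', mul_smul, ih, SemilinearAut.smul_algebraMap, baseAut_coeffFrob, ← pow_mul,
        pow_succ]
  have hmul : ∀ {x y : Fc}, (∃ s, 0 < s ∧ (coeffFrob k N q ^ s) • x = x) →
      (∃ s, 0 < s ∧ (coeffFrob k N q ^ s) • y = y) →
      ∃ s, 0 < s ∧ (coeffFrob k N q ^ s) • x = x ∧ (coeffFrob k N q ^ s) • y = y := by
    rintro x y ⟨s, hs, hx⟩ ⟨t, ht, hy⟩
    exact ⟨s * t, Nat.mul_pos hs ht, pow_smul_of_dvd hx (dvd_mul_right _ _),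
      pow_smul_of_dvd hy (dvd_mul_left _ _)⟩
  obtain ⟨f, hf⟩ := f
  induction hf using IntermediateField.adjoin_induction with
  | mem y hy =>
    obtain ⟨d, hne, hd, rfl⟩ := hy
    refine ⟨1, one_pos, ?_⟩
    rw [pow_one]
    refine Subtype.ext ((coe_coeffFrob_smul k N q _).trans ?_)
    show coeffMap _ (qExpand k d (jqModC k)) = qExpand k d (jqModC k)
    rw [ModularCurve.coeffMap_qExpand, coeffMap_jqModC]
  | algebraMap c =>
    obtain ⟨r, hr, hc⟩ := halg c
    exact ⟨r, hr, (hbase r c).trans (by rw [hc]; rfl)⟩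
  | add x y hxm hym hx hy =>
    obtain ⟨s, hs, h1, h2⟩ := hmul hx hy
    refine ⟨s, hs, ?_⟩
    show _ • (⟨x, hxm⟩ + ⟨y, hym⟩ : Fc) = (⟨x, hxm⟩ + ⟨y, hym⟩ : Fc)
    rw [smul_add, h1, h2]
  | inv x hxm hx =>
    obtain ⟨s, hs, h1⟩ := hx
    refine ⟨s, hs, ?_⟩
    show _ • (⟨x, hxm⟩⁻¹ : Fc) = (⟨x, hxm⟩⁻¹ : Fc)
    rw [smul_inv'', h1]
  | mul x y hxm hym hx hy =>
    obtain ⟨s, hs, h1, h2⟩ := hmul hx hy
    refine ⟨s, hs, ?_⟩
    show _ • (⟨x, hxm⟩ * ⟨y, hym⟩ : Fc) = (⟨x, hxm⟩ * ⟨y, hym⟩ : Fc)
    rw [smul_mul', h1, h2]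

variable [NeZero N] [IsAlgClosed k] [FF.IsFF k (modularFunctionFieldFullC k N)]

/-- The place at infinity is fixed. -/
theorem exists_fixedPlace : ∃ P : Place k Fc, coeffFrob k N q • P = P := by
  have hinv : ∀ x : LaurentSeries k, (x⁻¹).order = -x.order := fun x => by
    rcases eq_or_ne x 0 with rfl | hx
    · simp
    have h := HahnSeries.order_mul hx (inv_ne_zero hx)
    rw [mul_inv_cancel₀ hx, HahnSeries.order_one] at h
    omega
  let A : ValuationSubring Fc :=
    { carrier := {f | 0 ≤ (f : LaurentSeries k).order}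
      one_mem' := by simp
      zero_mem' := by simp
      neg_mem' := fun {a} ha => by
        show 0 ≤ (-(a : LaurentSeries k)).order
        rw [HahnSeries.order_neg]
        exact ha
      add_mem' := fun {a b} ha hb => by
        show 0 ≤ ((a : LaurentSeries k) + b).order
        rcases eq_or_ne ((a : LaurentSeries k) + b) 0 with h | h
        · simp [h]
        · exact (le_min ha hb).trans (HahnSeries.min_order_le_order_add h)
      mul_mem' := fun {a b} ha hb => by
        show 0 ≤ ((a : LaurentSeries k) * b).order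
        rcases eq_or_ne (a : LaurentSeries k) 0 with h | h
        · simp [h]
        rcases eq_or_ne (b : LaurentSeries k) 0 with h' | h'
        · simp [h']
        rw [HahnSeries.order_mul h h']
        exact add_nonneg ha hb
      mem_or_inv_mem' := fun a => by
        show 0 ≤ (a : LaurentSeries k).order ∨ 0 ≤ ((a : LaurentSeries k)⁻¹).order
        rw [hinv]
        omega }
  have hmem : ∀ f : Fc, f ∈ A ↔ 0 ≤ (f : LaurentSeries k).order := fun f => Iff.rfl
  have hK : ∀ a : k, algebraMap k Fc a ∈ A := fun a => by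
    rw [hmem]
    show 0 ≤ (algebraMap k (LaurentSeries k) a).order
    rw [algebraMap_laurentSeries_eq_single]
    rcases eq_or_ne a 0 with rfl | ha
    · simp
    · rw [HahnSeries.order_single ha]
  have hA : A ≠ ⊤ := fun h => by
    have h1 : Reduction.jF N k ∈ A := h ▸ ValuationSubring.mem_top _
    rw [hmem] at h1
    change 0 ≤ (jqModC k).order at h1
    rw [Reduction.order_jqModC] at h1
    omega
  obtain ⟨v, hv⟩ := FF.exists_place_eq A hK hA
  have hord : ∀ f : Fc, ((coeffFrob k N q)⁻¹ • f : Fc) ∈ A ↔ f ∈ A := fun f => by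
    set g := (coeffFrob k N q)⁻¹ • f with hg
    have hf : f = coeffFrob k N q • g := by rw [hg, smul_inv_smul]
    rw [hmem, hmem, hf, coe_coeffFrob_smul]
    rcases eq_or_ne (g : LaurentSeries k) 0 with h | h
    · rw [h, map_zero]
    · have hne : coeffMap (frobeniusEquiv k q : k →+* k) (g : LaurentSeries k) ≠ 0 :=
        fun h0 => h ((coeffMap (frobeniusEquiv k q : k →+* k)).injective (by rw [h0, map_zero]))
      have : (coeffMap (frobeniusEquiv k q : k →+* k) (g : LaurentSeries k)).order =
          (g : LaurentSeries k).order := by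
        refine le_antisymm (HahnSeries.order_le_of_coeff_ne_zero ?_)
          (HahnSeries.order_le_of_coeff_ne_zero ?_)
        · rw [coeffMap_coeff]
          simpa using mt HahnSeries.coeff_order_eq_zero.1 h
        · intro h0
          apply mt HahnSeries.coeff_order_eq_zero.1 hne
          rw [coeffMap_coeff, h0, map_zero]
      rw [this]
  refine ⟨v, Place.ext ?_⟩
  rw [SemilinearAut.smul_toValuationSubring, hv]
  ext f
  rw [ValuationSubring.mem_pointwise_smul_iff_inv_smul_mem]
  exact hord f

/-- Fixed places of the iterates are finite. -/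
theorem finite_fixedPlaces (hpow : ∀ s (x : k),
      SemilinearAut.baseAut (coeffFrob k N q ^ s) x = x ^ q ^ s) {s : ℕ} (hs : 0 < s) :
    {P : Place k Fc | (coeffFrob k N q ^ s) • P = P}.Finite := by
  classical
  set J := Reduction.jF N k with hJ
  set Q := q ^ s with hQ
  have hQ1 : 1 < Q := Nat.one_lt_pow hs.ne' (Fact.out : q.Prime).one_lt
  have hfin : ({P : Place k Fc | P.ord J < 0} ∪
      ⋃ c ∈ fixConst k Q, {P : Place k Fc | 0 < P.ord (J - algebraMap k Fc c)}).Finite := by
    refine (FF.finite_setOf_ord_neg J).union ((finite_fixConst hQ1).biUnion fun c _ => ?_)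
    refine (FF.finite_setOf_ord_neg (J - algebraMap k Fc c)⁻¹).subset fun P hP => ?_
    simp only [Set.mem_ofPred_eq, Place.ord_inv] at hP ⊢
    omega
  refine hfin.subset fun P hP => ?_
  by_cases hneg : P.ord J < 0
  · exact Or.inl hneg
  right
  obtain ⟨c, hc⟩ := FF.exists_residue_const P (f := J) (Or.inr (not_lt.1 hneg))
  have hne : ∀ c, J - algebraMap k Fc c ≠ 0 := fun c h => by
    have h' : J = algebraMap k Fc c := sub_eq_zero.1 h
    exact Reduction.transcendental_jF N k (hJ ▸ h' ▸ isAlgebraic_algebraMap c)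
  have hc' := hc.resolve_left (hne c)
  refine Set.mem_iUnion₂.2 ⟨c, ?_, hc'⟩
  show c ^ Q = c
  by_contra hcQ
  have hfixJ : (coeffFrob k N q ^ s) • J = J :=
    pow_smul_of_dvd (s := 1) (by rw [pow_one]; exact smul_jF k N q) (one_dvd s)
  have h1 : (1 : ℤ) ≤ P.ord (J - algebraMap k Fc (c ^ Q)) := by
    have h2 := SemilinearAut.ord_smul (coeffFrob k N q ^ s) P (J - algebraMap k Fc c)
    rw [show (coeffFrob k N q ^ s) • P = P from hP, smul_sub, hfixJ,
      SemilinearAut.smul_algebraMap, hpow] at h2
    rw [h2]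
    exact hc'
  have hd : algebraMap k Fc (c ^ Q - c) ≠ 0 := (map_ne_zero _).2 (sub_ne_zero.2 hcQ)
  have h3 := FF.le_ord_add P (n := 1) (f := J - algebraMap k Fc c)
    (g := -(J - algebraMap k Fc (c ^ Q))) (Or.inr hc') (Or.inr (by rwa [FF.ord_neg]))
  rw [show J - algebraMap k Fc c + -(J - algebraMap k Fc (c ^ Q)) = algebraMap k Fc (c ^ Q - c)
    by rw [map_sub]; ring] at h3
  rcases h3 with h3 | h3
  · exact hd h3
  · rw [FF.ord_algebraMap] at h3; omega

/-- The coefficient Frobenius is of Frobenius type. -/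
theorem isFrob_coeffFrob (halg : ∀ x : k, ∃ r, 0 < r ∧ x ^ q ^ r = x) :
    IsFrob (coeffFrob k N q) q := by
  have hpow : ∀ s (x : k), SemilinearAut.baseAut (coeffFrob k N q ^ s) x = x ^ q ^ s := by
    intro s
    induction s with
    | zero => intro x; simp
    | succ s ih =>
      intro x
      rw [pow_succ', SemilinearAut.baseAut_mul]
      show SemilinearAut.baseAut (coeffFrob k N q)
        (SemilinearAut.baseAut (coeffFrob k N q ^ s) x) = _
      rw [ih, baseAut_coeffFrob, ← pow_mul, pow_succ]
  exact ⟨(Fact.out : q.Prime).one_lt, CharP.cast_eq_zero k q, baseAut_coeffFrob k N q,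
    coeffFrob_periodic k N q halg, exists_fixedPlace k N q,
    fun s hs => finite_fixedPlaces k N q hpow hs⟩

end FLTAgent.RedSurj
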