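import Mathlib
import Fermat.Prelude.Def_FLTPrelim_Ramification
import Fermat.Prelude.Def_ModularCurve_X0ModL
import Fermat.Agent.FF.RiemannRoch
import Fermat.Agent.Reduction.GaussField
import Fermat.Agent.GalCommon.Basic
import Fermat.Agent.RedSurj.Frobenius
import Fermat.Agent.RedSurj.Fullc
import Fermat.Agent.TwoChart.Bound

/-!
# Torsion of the class group of the special fibre of `X₀(N)`

With `k` the residue field at a place over a prime `q ∤ N`, the `p ^ m`-torsion of the class group
of `k(X₀(N))` has order at most `C p ^ (2 g m)` (`card_torsion_residue_le`), hence also the number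
of Kummer classes modulo `p ^ m`-th powers (`card_kummer_residue_le`).
-/

set_option autoImplicit false

noncomputable section

open AlgebraicCurve ModularCurve

namespace FLTAgent.RedSurj

/-- Kummer classes are bounded by the torsion of the class group. -/
theorem card_le_card_torsion {k F : Type*} [Field k] [Field F] [Algebra k F] [IsAlgClosed k]
    [FF.IsFF k F] {n : ℕ} (hn : 0 < n) [Finite (Pic0.torsion k F n)] (T : Finset F)
    (hT : ∀ u ∈ T, TwoChart.IsKummer k n u)
    (hd : ∀ u ∈ T, ∀ u' ∈ T, u ≠ u' → ¬ ∃ w : F, u = u' * w ^ n) :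
    T.card ≤ Nat.card (Pic0.torsion k F n) := by
  classical
  have hdiv : ∀ u : T, ∃ D : Divisor k F, n • D = FF.divisorOf u.1 := by
    intro u
    refine ⟨(FF.divisorOf u.1).mapRange (fun z : ℤ => z / (n : ℤ)) (Int.zero_ediv _),
      Finsupp.ext fun v => ?_⟩
    rw [Finsupp.smul_apply, Finsupp.mapRange_apply, FF.divisorOf_apply, nsmul_eq_mul]
    exact Int.mul_ediv_cancel' ((hT u.1 u.2).2 v)
  choose D hD using hdiv
  have hD0 : ∀ u, D u ∈ Divisor.degZero (K := k) (F := F) := fun u => by
    have h := congrArg Divisor.degree (hD u)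
    rw [map_nsmul, FF.degree_divisorOf, nsmul_eq_mul] at h
    exact (mul_eq_zero.1 h).resolve_left (by exact_mod_cast hn.ne')
  have hmem : ∀ u, Pic0.mk ⟨D u, hD0 u⟩ ∈ Pic0.torsion k F n := fun u => by
    rw [Pic0.mem_torsion, natCast_zsmul]
    refine (QuotientAddGroup.eq_zero_iff (n • (⟨D u, hD0 u⟩ : Divisor.degZero (K := k) (F := F)))).2 ?_
    rw [AddSubgroup.mem_addSubgroupOf, AddSubgroup.coe_nsmul, Divisor.mem_principal, hD]
    exact isPrincipal_divisorOf (hT u.1 u.2).1
  rw [← Nat.card_eq_finsetCard T]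
  refine Nat.card_le_card_of_injective
    (fun u => (⟨_, hmem u⟩ : Pic0.torsion k F n)) fun u u' h => ?_
  by_contra hne
  have h1 := (QuotientAddGroup.eq).1
    (congrArg (fun z : Pic0.torsion k F n => (z : Pic0 k F)) h)
  rw [AddSubgroup.mem_addSubgroupOf, AddSubgroup.coe_add, NegMemClass.coe_neg,
    Divisor.mem_principal, neg_add_eq_sub] at h1
  obtain ⟨w, hw, hwdiv⟩ := h1
  have hu0 := (hT u.1 u.2).1
  have hu0' := (hT u'.1 u'.2).1
  have hz : (FF.divisorOf (u'.1 * (u.1 * w ^ n)⁻¹) : Divisor k F) = 0 := by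
    refine Finsupp.ext fun v => ?_
    have hv := hwdiv v
    have e1 := DFunLike.congr_fun (hD u) v
    have e2 := DFunLike.congr_fun (hD u') v
    simp only [Finsupp.smul_apply, FF.divisorOf_apply, nsmul_eq_mul, Finsupp.sub_apply] at hv e1 e2
    rw [FF.divisorOf_apply, v.ord_mul hu0' (inv_ne_zero (mul_ne_zero hu0 (pow_ne_zero _ hw))),
      v.ord_inv, v.ord_mul hu0 (pow_ne_zero _ hw), FF.ord_pow, ← e1, ← e2, ← hv,
      Finsupp.coe_zero, Pi.zero_apply]
    ring
  obtain ⟨c, hc⟩ := exists_const_of_divisorOf_eq_zero hz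
  obtain ⟨a, ha⟩ := IsAlgClosed.exists_pow_nat_eq c hn
  refine hd u'.1 u'.2 u.1 u.2 (fun h' => hne (Subtype.ext h'.symm))
    ⟨algebraMap k F a * w, ?_⟩
  rw [mul_pow, ← map_pow, ha, hc]
  field_simp

variable (A : ValuationSubring (AlgebraicClosure ℚ)) {q : ℕ} [Fact q.Prime] (N : ℕ) [NeZero N]
  (p : ℕ) [Fact p.Prime]

local notation "k" => IsLocalRing.ResidueField A

/-- Every element of the residue field is fixed by a power of Frobenius. -/
theorem exists_pow_eq_residue (hA : A.LiesOverPrime q) (x : k) :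
    ∃ r, 0 < r ∧ x ^ q ^ r = x := by
  have := GalCommon.charP_residueField (Fact.out : q.Prime) hA
  let : Algebra (ZMod q) k := ZMod.algebra _ q
  have := GalCommon.isAlgebraic_residueField A (Fact.out : q.Prime) hA
  have hint : IsIntegral (ZMod q) x :=
    (Algebra.IsAlgebraic.isAlgebraic (R := ZMod q) x).isIntegral
  have := IntermediateField.adjoin.finiteDimensional hint
  set E := IntermediateField.adjoin (ZMod q) ({x} : Set k)
  have : Finite E := Module.finite_of_finite (ZMod q)
  have := Fintype.ofFinite E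
  refine ⟨Module.finrank (ZMod q) E, Module.finrank_pos, ?_⟩
  have h := congrArg Subtype.val (FiniteField.pow_card
    (⟨x, IntermediateField.subset_adjoin (ZMod q) _ (Set.mem_singleton x)⟩ : E))
  rw [Module.card_eq_pow_finrank (K := ZMod q), ZMod.card] at h
  simpa using h

/-- Growth of the `p`-power torsion of the class group of the special fibre. -/
theorem card_torsion_residue_le (hA : A.LiesOverPrime q) (hqN : ¬ q ∣ N) :
    ∃ C : ℕ, ∀ m : ℕ, Finite (Pic0.torsion k (modularFunctionFieldFullC k N) (p ^ m)) ∧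
      Nat.card (Pic0.torsion k (modularFunctionFieldFullC k N) (p ^ m)) ≤
        C * p ^ (2 * genusFF k (modularFunctionFieldFullC k N) * m) := by
  have := GalCommon.charP_residueField (Fact.out : q.Prime) hA
  have := GalCommon.isAlgClosed_residueField A (Fact.out : q.Prime) hA
  have : PerfectRing k q := PerfectField.toPerfectRing q
  have := Reduction.isFF_fullC_residue N A hA hqN
  exact exists_card_torsion_le (isFrob_coeffFrob k N q (exists_pow_eq_residue A hA)) p

/-- Growth of the Kummer classes on the special fibre. -/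
theorem card_kummer_residue_le (hA : A.LiesOverPrime q) (hqN : ¬ q ∣ N) :
    ∃ C : ℕ, ∀ (m : ℕ) (T : Finset (modularFunctionFieldFullC k N)),
      (∀ u ∈ T, TwoChart.IsKummer k (p ^ m) u) →
      (∀ u ∈ T, ∀ u' ∈ T, u ≠ u' →
        ¬ ∃ w : modularFunctionFieldFullC k N, u = u' * w ^ (p ^ m)) →
      T.card ≤ C * p ^ (2 * genusFF k (modularFunctionFieldFullC k N) * m) := by
  have := GalCommon.isAlgClosed_residueField A (Fact.out : q.Prime) hA
  have := Reduction.isFF_fullC_residue N A hA hqN
  obtain ⟨C, hC⟩ := card_torsion_residue_le A N p hA hqN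
  refine ⟨C, fun m T hT hd => ?_⟩
  have := (hC m).1
  exact (card_le_card_torsion (pow_pos (Fact.out : p.Prime).pos m) T hT hd).trans (hC m).2

end FLTAgent.RedSurj
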